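/-
Program C (S55), package C9b (helper70), leaf (LC-TORS) — helper74.

Level-constant cohomology `H49.Hlc D M n` is torsion in degrees `n ≥ 1`, as soon as every level
subgroup of the level datum `D` has finite index: a level-constant cocycle `f` of level `U`
satisfies `[G : U] • f = d (± h)`, `h (g₁, …, gₙ₋₁) = ∑_{q ∈ G/U} f (g₁, …, gₙ₋₁, q)`
(averaging over the last variable).
-/
import Mathlib
import Fermat.Agent.S55.H49.LevelDefs
import Fermat.Agent.S55.H62.HomologyElt

set_option autoImplicit false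

open CategoryTheory groupCohomology

namespace Fermat.Agent.S55.H74

open Fermat.Agent.S55.H49

section Tuples

variable {α : Type*}

theorem snoc_succ_eq {n : ℕ} (g : Fin (n + 1) → α) (x : α) :
    (fun i : Fin (n + 1) => (Fin.snoc g x : Fin (n + 2) → α) i.succ) =
      (Fin.snoc (fun i : Fin n => g i.succ) x : Fin (n + 1) → α) := by
  funext i
  refine Fin.lastCases ?_ (fun i => ?_) i
  · rw [Fin.succ_last, Fin.snoc_last, Fin.snoc_last]
  · rw [Fin.succ_castSucc, Fin.snoc_castSucc, Fin.snoc_castSucc]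

theorem contractNth_last_snoc {n : ℕ} (op : α → α → α) (g : Fin (n + 1) → α) (x : α) :
    Fin.contractNth (Fin.last (n + 1)) op (Fin.snoc g x : Fin (n + 2) → α) = g := by
  funext i
  rw [Fin.contractNth_apply_of_lt _ _ _ _ (by rw [Fin.val_last]; exact i.is_lt),
    Fin.snoc_castSucc]

theorem contractNth_castSucc_snoc {n : ℕ} (op : α → α → α) (g : Fin (n + 1) → α) (x : α)
    (j : Fin n) :
    Fin.contractNth (Fin.castSucc (Fin.castSucc j)) op (Fin.snoc g x : Fin (n + 2) → α) =
      (Fin.snoc (Fin.contractNth (Fin.castSucc j) op g) x : Fin (n + 1) → α) := by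
  funext i
  refine Fin.lastCases ?_ (fun i => ?_) i
  · rw [Fin.snoc_last, Fin.contractNth_apply_of_gt _ _ _ _ (by simp), Fin.succ_last,
      Fin.snoc_last]
  · rw [Fin.snoc_castSucc]
    rcases lt_trichotomy (i : ℕ) (j : ℕ) with h | h | h
    · rw [Fin.contractNth_apply_of_lt _ _ _ _ (by simpa using h),
        Fin.contractNth_apply_of_lt _ _ _ _ (by simpa using h), Fin.snoc_castSucc]
    · rw [Fin.contractNth_apply_of_eq _ _ _ _ (by simpa using h),
        Fin.contractNth_apply_of_eq _ _ _ _ (by simpa using h), Fin.snoc_castSucc,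
        Fin.succ_castSucc, Fin.snoc_castSucc]
    · rw [Fin.contractNth_apply_of_gt _ _ _ _ (by simpa using h),
        Fin.contractNth_apply_of_gt _ _ _ _ (by simpa using h), Fin.succ_castSucc,
        Fin.snoc_castSucc]

theorem contractNth_castSucc_last_snoc {n : ℕ} (op : α → α → α) (g : Fin (n + 1) → α) (x : α) :
    Fin.contractNth (Fin.castSucc (Fin.last n)) op (Fin.snoc g x : Fin (n + 2) → α) =
      (Fin.snoc (Fin.contractNth (Fin.last n) op g) (op (g (Fin.last n)) x) :
        Fin (n + 1) → α) := by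
  funext i
  refine Fin.lastCases ?_ (fun i => ?_) i
  · rw [Fin.snoc_last, Fin.contractNth_apply_of_eq _ _ _ _ (by simp), Fin.succ_last,
      Fin.snoc_last, Fin.snoc_castSucc]
  · rw [Fin.snoc_castSucc, Fin.contractNth_apply_of_lt _ _ _ _ (by simp),
      Fin.contractNth_apply_of_lt _ _ _ _ (by simp), Fin.snoc_castSucc]

end Tuples

variable {G : Type} [Group G] {k : Type} [CommRing k]

/-- The average over the last variable of an `(n+1)`-cochain. -/
noncomputable def avgLast (U : Subgroup G) [Fintype (G ⧸ U)] (M : Rep.{0} k G) {n : ℕ}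
    (f : (Fin (n + 1) → G) → M) : (Fin n → G) → M :=
  fun g => ∑ q : G ⧸ U, f (Fin.snoc g q.out)

theorem isLCAt_avgLast (U : Subgroup G) [Fintype (G ⧸ U)] (M : Rep.{0} k G) {n : ℕ}
    {f : (Fin (n + 1) → G) → M} (hf : IsLCAt U M f) : IsLCAt U M (avgLast U M f) := by
  refine ⟨fun g s hs => ?_, fun g s hs => ?_⟩
  · unfold avgLast
    refine Finset.sum_congr rfl fun q _ => ?_
    refine hf.congr fun i => ?_
    refine Fin.lastCases ?_ (fun i => ?_) i
    · rw [Fin.snoc_last, Fin.snoc_last, inv_mul_cancel]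
      exact U.one_mem
    · rw [Fin.snoc_castSucc, Fin.snoc_castSucc, Pi.mul_apply, mul_inv_rev, inv_mul_cancel_right]
      exact U.inv_mem (hs i)
  · unfold avgLast
    rw [map_sum]
    exact Finset.sum_congr rfl fun q _ => hf.2 _ _ hs

/-- Reindexing the average: left translation of the last variable. -/
theorem sum_snoc_mul_out (U : Subgroup G) [Fintype (G ⧸ U)] (M : Rep.{0} k G) {n : ℕ}
    {f : (Fin (n + 1) → G) → M} (hf : IsLCAt U M f) (a : Fin n → G) (c : G) :
    ∑ q : G ⧸ U, f (Fin.snoc a (c * q.out)) = ∑ q : G ⧸ U, f (Fin.snoc a q.out) := by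
  have h1 : ∀ q : G ⧸ U, f (Fin.snoc a (c * q.out)) = f (Fin.snoc a (c • q).out) := by
    intro q
    refine hf.congr fun i => ?_
    refine Fin.lastCases ?_ (fun i => ?_) i
    · rw [Fin.snoc_last, Fin.snoc_last, ← QuotientGroup.eq, QuotientGroup.out_eq']
      have e : ((c * q.out : G) : G ⧸ U) = c • ((q.out : G) : G ⧸ U) := rfl
      rw [e, QuotientGroup.out_eq']
    · rw [Fin.snoc_castSucc, Fin.snoc_castSucc, inv_mul_cancel]
      exact U.one_mem
  simp_rw [h1]
  exact Equiv.sum_comp (MulAction.toPerm c) fun q : G ⧸ U => f (Fin.snoc a q.out)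

/-- The averaging identity: for a cocycle `f` of level `U`,
`d (avgLast f) = (-1)^(n+1) [G : U] • f`. -/
theorem d_avgLast (U : Subgroup G) [Fintype (G ⧸ U)] (M : Rep.{0} k G) {n : ℕ}
    {f : (Fin (n + 1) → G) → M} (hf : IsLCAt U M f)
    (hcoc : (inhomogeneousCochains.d M (n + 1)).hom f = 0) :
    (inhomogeneousCochains.d M n).hom (avgLast U M f) =
      ((-1 : k) ^ (n + 1) * (Fintype.card (G ⧸ U) : k)) • f := by
  funext g
  have h0 : ∀ q : G ⧸ U, (inhomogeneousCochains.d M (n + 1)).hom f (Fin.snoc g q.out) = 0 := by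
    intro q
    rw [hcoc]
    rfl
  have hsum : ∑ q : G ⧸ U, (inhomogeneousCochains.d M (n + 1)).hom f (Fin.snoc g q.out) = 0 :=
    Finset.sum_eq_zero fun q _ => h0 q
  simp only [inhomogeneousCochains.d_hom_apply] at hsum
  rw [Finset.sum_add_distrib] at hsum
  -- first term
  have e1 : ∑ q : G ⧸ U, M.ρ ((Fin.snoc g q.out : Fin (n + 2) → G) 0)
      (f fun i => (Fin.snoc g q.out : Fin (n + 2) → G) i.succ) =
      M.ρ (g 0) (avgLast U M f fun i => g i.succ) := by
    unfold avgLast
    rw [map_sum]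
    refine Finset.sum_congr rfl fun q _ => ?_
    rw [snoc_succ_eq]
    congr 2
  -- the other terms
  have e2 : ∑ q : G ⧸ U, ∑ j : Fin (n + 2), (-1 : k) ^ ((j : ℕ) + 1) •
        f (Fin.contractNth j (· * ·) (Fin.snoc g q.out : Fin (n + 2) → G)) =
      ∑ j : Fin (n + 1), (-1 : k) ^ ((j : ℕ) + 1) •
        avgLast U M f (Fin.contractNth j (· * ·) g) +
      ((-1 : k) ^ (n + 2) * (Fintype.card (G ⧸ U) : k)) • f g := by
    rw [Finset.sum_comm, Fin.sum_univ_castSucc]
    congr 1
    · refine Finset.sum_congr rfl fun j _ => ?_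
      rw [← Finset.smul_sum]
      congr 1
      unfold avgLast
      refine Fin.lastCases ?_ (fun j => ?_) j
      · simp_rw [contractNth_castSucc_last_snoc]
        exact sum_snoc_mul_out U M hf _ _
      · simp_rw [contractNth_castSucc_snoc]
    · simp_rw [contractNth_last_snoc]
      rw [Finset.sum_const, Finset.card_univ, Fin.val_last, mul_smul, ← Nat.cast_smul_eq_nsmul k,
        smul_comm]
  rw [e1, e2, ← add_assoc] at hsum
  rw [inhomogeneousCochains.d_hom_apply]
  have h3 := eq_neg_of_add_eq_zero_left hsum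
  rw [h3, Pi.smul_apply, ← neg_smul]
  congr 1
  ring

/-- The differential of `lcComplex`, on elements. -/
theorem lcComplex_d_apply (D : LevelDatum G) (M : Rep.{0} k G) (n : ℕ) (z : lcCochains D M n) :
    ((lcComplex D M).d n (n + 1)).hom z = lcD D M n z := by
  simp only [lcComplex, CochainComplex.of_d]
  rfl

/-- **(LC-TORS)**: level-constant cohomology is torsion in positive degrees, if all level
subgroups have finite index. -/
theorem homology_torsion_succ (D : LevelDatum G)
    (hfin : ∀ F, D.Lev F → (D.sub F).FiniteIndex) (M : Rep.{0} k G) (n : ℕ)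
    (x : (lcComplex D M).homology (n + 1)) : ∃ m : ℕ, 0 < m ∧ m • x = 0 := by
  obtain ⟨z, hz, rfl⟩ := H62.Hmk_surjective (lcComplex D M) (n + 1) x
  obtain ⟨F, hF, hN, hLC⟩ := (z : lcCochains D M (n + 1)).2
  have := hfin F hF
  let _ : Fintype (G ⧸ D.sub F) := Fintype.ofFinite _
  refine ⟨Fintype.card (G ⧸ D.sub F), Fintype.card_pos, ?_⟩
  have hz' : (inhomogeneousCochains.d M (n + 1)).hom (z : lcCochains D M (n + 1)).1 = 0 := by
    have := lcComplex_d_apply D M (n + 1) z
    rw [hz] at this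
    exact (congrArg Subtype.val this).symm
  have key := d_avgLast (D.sub F) M hLC hz'
  set w : lcCochains D M n := ⟨avgLast (D.sub F) M (z : lcCochains D M (n + 1)).1,
    F, hF, hN, isLCAt_avgLast (D.sub F) M hLC⟩ with hw
  have hcz : ((lcComplex D M).d (n + 1) (n + 2)).hom
      (((Fintype.card (G ⧸ D.sub F) : ℕ) : k) • z) = 0 := by
    rw [map_smul, hz, smul_zero]
  rw [← Nat.cast_smul_eq_nsmul k, ← H62.Hmk_smul (lcComplex D M) (n + 1) _ z hz hcz,
    H62.Hmk_succ_eq_zero_iff]
  refine ⟨((-1 : k) ^ (n + 1)) • w, ?_⟩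
  rw [lcComplex_d_apply, map_smul]
  apply Subtype.ext
  show (-1 : k) ^ (n + 1) • (inhomogeneousCochains.d M n).hom
    (avgLast (D.sub F) M (z : lcCochains D M (n + 1)).1) = _
  rw [key, ← mul_smul, ← mul_assoc, ← pow_add, ← two_mul, pow_mul]
  simp
  rfl

/-- **(LC-TORS)**: level-constant cohomology is torsion in positive degrees, if all level
subgroups have finite index. -/
theorem hlc_torsion_succ (D : LevelDatum G)
    (hfin : ∀ F, D.Lev F → (D.sub F).FiniteIndex) (M : Rep.{0} k G) (n : ℕ)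
    (x : Hlc D M (n + 1)) : ∃ m : ℕ, 0 < m ∧ m • x = 0 :=
  homology_torsion_succ D hfin M n x

/-- **(LC-TORS)**, in the shape of the request: `n ≥ 1`. -/
theorem hlc_torsion (D : LevelDatum G)
    (hfin : ∀ F, D.Lev F → (D.sub F).FiniteIndex) (M : Rep.{0} k G) (n : ℕ) (hn : 1 ≤ n)
    (x : Hlc D M n) : ∃ m : ℕ, 0 < m ∧ m • x = 0 := by
  obtain ⟨n, rfl⟩ := Nat.exists_eq_succ_of_ne_zero (Nat.one_le_iff_ne_zero.1 hn)
  exact hlc_torsion_succ D hfin M n x

end Fermat.Agent.S55.H74
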