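/-
Program C (S55), C0-type leaf (helper74): the FINITE-LEVEL DESCRIPTION of level-constant
cochains, cochain level.

For a level datum `D` on `G`, a representation `M` and a normal subgroup `U` of `G` containing
the subgroup of a normal level of `D` (`D.IsOpenN U`), inflation of cochains
`Cⁿ(G ⧸ U, M^U) → Cⁿ(G, M)` takes values in the level-constant cochains, is injective, and its
image is exactly the set of cochains of level `U` (`H49.IsLCAt U M`).  So
`H49.lcComplex D M` is the directed union of the complexes `C•(G ⧸ U, M^U)`.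
-/
import Mathlib
import Fermat.Agent.S55.H49.LevelDefs

set_option autoImplicit false

open CategoryTheory groupCohomology

namespace Fermat.Agent.S55.H74

open Fermat.Agent.S55.H49

variable {G : Type} [Group G] {k : Type} [CommRing k]

/-- `U` contains the subgroup of a level of `D` with normal fixing subgroup. -/
def IsOpenN (D : LevelDatum G) (U : Subgroup G) : Prop :=
  ∃ F : IntermediateField ℚ (AlgebraicClosure ℚ), D.Lev F ∧ (F.fixingSubgroup).Normal ∧
    D.sub F ≤ U

theorem isOpenN_sub (D : LevelDatum G) {F : IntermediateField ℚ (AlgebraicClosure ℚ)}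
    (hF : D.Lev F) (hN : (F.fixingSubgroup).Normal) : IsOpenN D (D.sub F) :=
  ⟨F, hF, hN, le_rfl⟩

theorem IsOpenN.mono {D : LevelDatum G} {U V : Subgroup G} (h : IsOpenN D U) (hUV : U ≤ V) :
    IsOpenN D V := by
  obtain ⟨F, hF, hN, hle⟩ := h
  exact ⟨F, hF, hN, hle.trans hUV⟩

theorem IsOpenN.inf {D : LevelDatum G} {U V : Subgroup G} (hU : IsOpenN D U)
    (hV : IsOpenN D V) : IsOpenN D (U ⊓ V) := by
  obtain ⟨F, hF, hN, hle⟩ := hU
  obtain ⟨F', hF', hN', hle'⟩ := hV
  exact ⟨F ⊔ F', D.sup hF hF', normal_fixingSubgroup_sup hN hN',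
    le_inf ((D.sub_antitone le_sup_left).trans hle) ((D.sub_antitone le_sup_right).trans hle')⟩

/-- Inflation of inhomogeneous cochains from `G ⧸ U` with values in `M^U` (Mathlib's
`cochainsMap` for the quotient map). -/
noncomputable abbrev inflCo (M : Rep.{0} k G) (U : Subgroup G) [U.Normal] :
    inhomogeneousCochains (M.quotientToInvariants U) ⟶ inhomogeneousCochains M :=
  cochainsMap (QuotientGroup.mk' U) (Rep.ofHom <| M.ρ.quotientToInvariants_lift U)

theorem inflCo_apply (M : Rep.{0} k G) (U : Subgroup G) [U.Normal] {n : ℕ}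
    (f : (Fin n → G ⧸ U) → M.quotientToInvariants U) (g : Fin n → G) :
    ((inflCo M U).f n).hom f g = ((f fun i => (g i : G ⧸ U)) : M.quotientToInvariants U).1 :=
  rfl

/-- Inflated cochains have level `U`. -/
theorem isLCAt_inflCo (M : Rep.{0} k G) (U : Subgroup G) [U.Normal] {n : ℕ}
    (f : (Fin n → G ⧸ U) → M.quotientToInvariants U) :
    IsLCAt U M (((inflCo M U).f n).hom f) := by
  refine ⟨fun g s hs => ?_, fun g s hs => ?_⟩
  · rw [inflCo_apply, inflCo_apply]
    congr 2
    funext i
    rw [Pi.mul_apply, QuotientGroup.mk_mul, (QuotientGroup.eq_one_iff (s i)).2 (hs i), mul_one]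
  · rw [inflCo_apply]
    exact (f fun i => (g i : G ⧸ U)).2 ⟨s, hs⟩

theorem isLC_inflCo (D : LevelDatum G) (M : Rep.{0} k G) (U : Subgroup G) [U.Normal]
    (hU : IsOpenN D U) {n : ℕ} (f : (Fin n → G ⧸ U) → M.quotientToInvariants U) :
    IsLC D M (((inflCo M U).f n).hom f) := by
  obtain ⟨F, hF, hN, hle⟩ := hU
  exact ⟨F, hF, hN, (isLCAt_inflCo M U f).mono hle⟩

/-- Inflation is injective on cochains. -/
theorem inflCo_injective (M : Rep.{0} k G) (U : Subgroup G) [U.Normal] (n : ℕ) :
    Function.Injective ((inflCo M U).f n).hom := by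
  intro f f' h
  funext q
  apply Subtype.ext
  have h1 := congrFun h (fun i => (q i).out)
  rw [inflCo_apply, inflCo_apply] at h1
  have e : (fun i => (((q i).out : G) : G ⧸ U)) = q := by
    funext i
    exact QuotientGroup.out_eq' (q i)
  rw [e] at h1
  exact h1

/-- The cochain on `G ⧸ U` attached to a cochain of level `U`. -/
noncomputable def descCo (M : Rep.{0} k G) (U : Subgroup G) [U.Normal] {n : ℕ}
    (z : (Fin n → G) → M) (hz : IsLCAt U M z) : (Fin n → G ⧸ U) → M.quotientToInvariants U :=
  fun q => ⟨z fun i => (q i).out, fun s => hz.2 _ s.1 s.2⟩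

theorem inflCo_descCo (M : Rep.{0} k G) (U : Subgroup G) [U.Normal] {n : ℕ}
    (z : (Fin n → G) → M) (hz : IsLCAt U M z) :
    ((inflCo M U).f n).hom (descCo M U z hz) = z := by
  funext g
  rw [inflCo_apply]
  show z (fun i => ((g i : G ⧸ U)).out) = z g
  refine hz.congr fun i => ?_
  rw [← QuotientGroup.eq, QuotientGroup.out_eq']

/-- The image of inflation is exactly the set of cochains of level `U`. -/
theorem mem_range_inflCo_iff (M : Rep.{0} k G) (U : Subgroup G) [U.Normal] {n : ℕ}
    (z : (Fin n → G) → M) :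
    (∃ f, ((inflCo M U).f n).hom f = z) ↔ IsLCAt U M z :=
  ⟨by rintro ⟨f, rfl⟩; exact isLCAt_inflCo M U f, fun hz => ⟨_, inflCo_descCo M U z hz⟩⟩

/-- Inflation commutes with the differentials (element form). -/
theorem inflCo_d (M : Rep.{0} k G) (U : Subgroup G) [U.Normal] (n : ℕ)
    (f : (Fin n → G ⧸ U) → M.quotientToInvariants U) :
    ((inflCo M U).f (n + 1)).hom
        ((inhomogeneousCochains.d (M.quotientToInvariants U) n).hom f) =
      (inhomogeneousCochains.d M n).hom (((inflCo M U).f n).hom f) := by
  have e := LinearMap.congr_fun (ModuleCat.hom_ext_iff.mp ((inflCo M U).comm n (n + 1))) f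
  simp only [inhomogeneousCochains, CochainComplex.of_d] at e
  exact e.symm

/-- Inflation, as a morphism to the complex of level-constant cochains. -/
noncomputable def inflLc (D : LevelDatum G) (M : Rep.{0} k G) (U : Subgroup G) [U.Normal]
    (hU : IsOpenN D U) :
    inhomogeneousCochains (M.quotientToInvariants U) ⟶ lcComplex D M where
  f n := ModuleCat.ofHom
    (LinearMap.codRestrict (lcCochains D M n) ((inflCo M U).f n).hom
      fun f => isLC_inflCo D M U hU f)
  comm' i j (hij : _ = _) := by
    subst hij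
    refine ModuleCat.hom_ext (LinearMap.ext fun f => Subtype.ext ?_)
    have e := inflCo_d M U i f
    simp only [lcComplex, inhomogeneousCochains, CochainComplex.of_d]
    exact e.symm

theorem inflLc_coe (D : LevelDatum G) (M : Rep.{0} k G) (U : Subgroup G) [U.Normal]
    (hU : IsOpenN D U) (n : ℕ) (f : (Fin n → G ⧸ U) → M.quotientToInvariants U) :
    (((inflLc D M U hU).f n).hom f : lcCochains D M n).1 = ((inflCo M U).f n).hom f := rfl

theorem inflLc_injective (D : LevelDatum G) (M : Rep.{0} k G) (U : Subgroup G) [U.Normal]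
    (hU : IsOpenN D U) (n : ℕ) : Function.Injective ((inflLc D M U hU).f n).hom := by
  intro f f' h
  apply inflCo_injective M U n
  have := congrArg Subtype.val h
  exact this

end Fermat.Agent.S55.H74
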