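/-
Program C (S55), package C9b, leaf (FL-Q) (helper74): the FINITE-LEVEL PRESENTATION of the
level-constant cohomology of `G_S(F)` with coefficients in `ℚ_S^×`, in direct Galois form.
Cochain level.

`F ⊆ ℚ̄` an intermediate field, `Γ = Gal(ℚ̄/F) = ↥F.fixingSubgroup`, `D = H42.fieldDatum S F`,
`M = H42.resF F (H42.QSx S)`.  A *layer* is an intermediate field `K` of `ℚ̄ / F`, normal over
`F`, with `K.restrictScalars ℚ` unramified outside `S`.  For a layer `K`:

* `galRes F K : Γ →* Gal(K/F)` (restriction), surjective, with kernel the elements fixing `K`;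
* `unitsToQS S F K hK : Res (Kˣ) ⟶ M` (the inclusion `Kˣ ⊆ ℚ_S^×`);
* `inflKCo`, `inflKLc` : inflation of cochains `C•(Gal(K/F), Kˣ) ⟶ lcComplex D M`, injective;
* `exists_inflKCo_eq` : a cochain of level `N ⊆ K` is inflated from `K`.
-/
import Mathlib
import Fermat.Agent.S55.H42.GSDefs
import Fermat.Agent.S55.H74.FiniteLevel

set_option autoImplicit false

open CategoryTheory groupCohomology

noncomputable section

namespace Fermat.Agent.S55.H74

open Fermat.Agent.S55.H49 Fermat.Agent.S55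

local notation "Qb" => AlgebraicClosure ℚ
local notation "GQ" => (AlgebraicClosure ℚ ≃ₐ[ℚ] AlgebraicClosure ℚ)

local instance isAlgebraicQbar_h74 : Algebra.IsAlgebraic ℚ (AlgebraicClosure ℚ) :=
  AlgebraicClosure.isAlgebraic ℚ
local instance isAlgClosureQbar_h74 : IsAlgClosure ℚ (AlgebraicClosure ℚ) :=
  ⟨inferInstance, inferInstance⟩
local instance isGaloisQbar_h74 : IsGalois ℚ (AlgebraicClosure ℚ) :=
  IsAlgClosure.isGalois ℚ (AlgebraicClosure ℚ)
local instance normalQbar_h74 : Normal ℚ (AlgebraicClosure ℚ) :=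
  IsAlgClosure.normal ℚ (AlgebraicClosure ℚ)

/-- `ℚ̄` is normal over every intermediate field. -/
theorem normal_over (F : IntermediateField ℚ Qb) : Normal ↥F Qb :=
  Normal.tower_top_of_normal ℚ ↥F Qb

section Res

variable (F : IntermediateField ℚ Qb) (K : IntermediateField ↥F Qb) [Normal ↥F ↥K]

/-- Restriction `Gal(ℚ̄/F) →* Gal(K/F)` for a normal extension `K/F` inside `ℚ̄`. -/
def galRes : ↥F.fixingSubgroup →* (↥K ≃ₐ[↥F] ↥K) :=
  (AlgEquiv.restrictNormalHom (F := ↥F) (K₁ := Qb) ↥K).comp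
    (IntermediateField.fixingSubgroupEquiv F).toMonoidHom

theorem galRes_apply (γ : ↥F.fixingSubgroup) (x : ↥K) :
    ((galRes F K γ x : ↥K) : Qb) = (γ : GQ) (x : Qb) :=
  AlgEquiv.restrictNormal_commutes (IntermediateField.fixingSubgroupEquiv F γ) ↥K x

theorem galRes_surjective : Function.Surjective (galRes F K) := by
  have := normal_over F
  intro σ
  obtain ⟨τ, hτ⟩ := AlgEquiv.restrictNormalHom_surjective (F := ↥F) (K₁ := ↥K) Qb σ
  exact ⟨(IntermediateField.fixingSubgroupEquiv F).symm τ, by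
    show AlgEquiv.restrictNormalHom (F := ↥F) (K₁ := Qb) ↥K
      ((IntermediateField.fixingSubgroupEquiv F) ((IntermediateField.fixingSubgroupEquiv F).symm τ))
      = σ
    rw [MulEquiv.apply_symm_apply]
    exact hτ⟩

theorem mem_ker_galRes_iff (γ : ↥F.fixingSubgroup) :
    γ ∈ (galRes F K).ker ↔ ∀ x : Qb, x ∈ K → (γ : GQ) x = x := by
  rw [MonoidHom.mem_ker]
  constructor
  · intro h x hx
    have := galRes_apply F K γ ⟨x, hx⟩
    rw [h] at this
    exact this.symm
  · intro h
    refine AlgEquiv.ext fun x => Subtype.ext ?_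
    rw [galRes_apply]
    exact h x x.2

theorem ker_galRes_le_sub (S : Finset Nat.Primes) (N : IntermediateField ℚ Qb)
    (hN : N ≤ K.restrictScalars ℚ) : (galRes F K).ker ≤ (H42.fieldDatum S F).sub N := by
  intro γ hγ
  rw [mem_ker_galRes_iff] at hγ
  show (γ : GQ) ∈ N.fixingSubgroup
  rw [IntermediateField.mem_fixingSubgroup_iff]
  exact fun x hx => hγ x (hN hx)

omit [Normal ↥F ↥K] in
/-- `F ⊆ K` as subfields of `ℚ̄`. -/
theorem le_restrictScalars : F ≤ K.restrictScalars ℚ := fun x hx =>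
  K.algebraMap_mem (⟨x, hx⟩ : ↥F)

/-- An element of `Gal(ℚ̄/ℚ)` fixing `K` lies in `Gal(ℚ̄/F)` and in the kernel of `galRes`. -/
theorem mem_ker_galRes_of_fixing (τ : GQ) (hτ : τ ∈ (K.restrictScalars ℚ).fixingSubgroup) :
    ∃ h : τ ∈ F.fixingSubgroup, (⟨τ, h⟩ : ↥F.fixingSubgroup) ∈ (galRes F K).ker := by
  refine ⟨IntermediateField.fixingSubgroup_antitone (le_restrictScalars F K) hτ, ?_⟩
  rw [mem_ker_galRes_iff]
  exact fun x hx => (IntermediateField.mem_fixingSubgroup_iff _ τ).mp hτ x hx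

/-- The kernel of `galRes` is "open": it contains the subgroup of a normal level. -/
theorem isOpenN_ker_galRes (S : Finset Nat.Primes)
    (hK : (K.restrictScalars ℚ).IsUnramifiedOutside S) :
    IsOpenN (H42.fieldDatum S F) (galRes F K).ker := by
  obtain ⟨N, h1, h2, h3, -⟩ := H43.exists_normal_level hK
  refine ⟨N, h1, h3, fun γ hγ => ?_⟩
  rw [mem_ker_galRes_iff]
  intro x hx
  exact (IntermediateField.mem_fixingSubgroup_iff N (γ : GQ)).mp hγ x (h2 hx)

end Res

section Units

variable (S : Finset Nat.Primes) (F : IntermediateField ℚ Qb) (K : IntermediateField ↥F Qb)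

/-- The inclusion `Kˣ → ℚ̄ˣ`. -/
def unitsIncl : (↥K)ˣ →* Qbˣ := Units.map ((algebraMap ↥K Qb : ↥K →+* Qb) : ↥K →* Qb)

theorem coe_unitsIncl (u : (↥K)ˣ) : ((unitsIncl F K u : Qbˣ) : Qb) = ((u : ↥K) : Qb) := rfl

theorem unitsIncl_injective : Function.Injective (unitsIncl F K) := by
  intro u v h
  apply Units.ext
  apply Subtype.ext
  have := congrArg (fun w : Qbˣ => (w : Qb)) h
  exact this

theorem unitsIncl_mem (hK : (K.restrictScalars ℚ).IsUnramifiedOutside S) (u : (↥K)ˣ) :
    unitsIncl F K u ∈ H42.qsUnits S :=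
  ⟨K.restrictScalars ℚ, hK, (u : ↥K).2⟩

/-- The inclusion `Kˣ → ℚ_S^×` as an additive map. -/
def unitsToQSAdd (hK : (K.restrictScalars ℚ).IsUnramifiedOutside S) :
    Additive (↥K)ˣ →+ H42.QSx S where
  toFun u := H42.unitsRep.mk (unitsIncl F K (Additive.toMul u))
    (unitsIncl_mem S F K hK (Additive.toMul u))
  map_zero' := H42.unitsRep.val_injective (by
    rw [H42.unitsRep.val_mk, H42.unitsRep.val_zero, toMul_zero, map_one])
  map_add' u v := H42.unitsRep.val_injective (by
    rw [H42.unitsRep.val_mk, H42.unitsRep.val_add, H42.unitsRep.val_mk, H42.unitsRep.val_mk,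
      toMul_add, map_mul])

theorem val_unitsToQSAdd (hK : (K.restrictScalars ℚ).IsUnramifiedOutside S)
    (u : Additive (↥K)ˣ) :
    H42.unitsRep.val (unitsToQSAdd S F K hK u) = unitsIncl F K (Additive.toMul u) := rfl

theorem unitsToQSAdd_injective (hK : (K.restrictScalars ℚ).IsUnramifiedOutside S) :
    Function.Injective (unitsToQSAdd S F K hK) := by
  intro u v h
  have := congrArg H42.unitsRep.val h
  rw [val_unitsToQSAdd, val_unitsToQSAdd] at this
  exact unitsIncl_injective F K this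

variable [Normal ↥F ↥K]

/-- The inclusion `Kˣ ⊆ ℚ_S^×` as a morphism of representations of `Gal(ℚ̄/F)`. -/
def unitsToQS (hK : (K.restrictScalars ℚ).IsUnramifiedOutside S) :
    Rep.res (galRes F K) (Rep.ofAlgebraAutOnUnits ↥F ↥K) ⟶ H42.resF F (H42.QSx S) :=
  Rep.ofHom ⟨(unitsToQSAdd S F K hK).toIntLinearMap, fun γ => LinearMap.ext fun u =>
    H42.unitsRep.val_injective (Units.ext (galRes_apply F K γ
      ((Additive.toMul (α := (↥K)ˣ) u : (↥K)ˣ) : ↥K)))⟩

theorem unitsToQS_hom_apply (hK : (K.restrictScalars ℚ).IsUnramifiedOutside S)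
    (u : Additive (↥K)ˣ) :
    (unitsToQS S F K hK).hom u = unitsToQSAdd S F K hK u := rfl

theorem val_unitsToQS (hK : (K.restrictScalars ℚ).IsUnramifiedOutside S)
    (u : Additive (↥K)ˣ) :
    H42.unitsRep.val (H := H42.qsUnits S) (hH := H42.qsStable S) ((unitsToQS S F K hK).hom u) =
      unitsIncl F K (Additive.toMul u) := rfl

theorem unitsToQS_injective (hK : (K.restrictScalars ℚ).IsUnramifiedOutside S) :
    Function.Injective (unitsToQS S F K hK).hom :=
  unitsToQSAdd_injective S F K hK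

end Units

section Cochains

variable (S : Finset Nat.Primes) (F : IntermediateField ℚ Qb) (K : IntermediateField ↥F Qb)
  [Normal ↥F ↥K] (hK : (K.restrictScalars ℚ).IsUnramifiedOutside S)

/-- Inflation of inhomogeneous cochains from the layer `K` to `Gal(ℚ̄/F)`. -/
abbrev inflKCo :
    inhomogeneousCochains (Rep.ofAlgebraAutOnUnits ↥F ↥K) ⟶
      inhomogeneousCochains (H42.resF F (H42.QSx S)) :=
  cochainsMap (galRes F K) (unitsToQS S F K hK)

theorem inflKCo_apply {n : ℕ}
    (c : (Fin n → (↥K ≃ₐ[↥F] ↥K)) → Rep.ofAlgebraAutOnUnits ↥F ↥K)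
    (γ : Fin n → ↥F.fixingSubgroup) :
    ((inflKCo S F K hK).f n).hom c γ =
      (unitsToQS S F K hK).hom (c fun i => galRes F K (γ i)) := rfl

/-- Inflated cochains have level `ker (galRes F K)`. -/
theorem isLCAt_inflKCo {n : ℕ}
    (c : (Fin n → (↥K ≃ₐ[↥F] ↥K)) → Rep.ofAlgebraAutOnUnits ↥F ↥K) :
    IsLCAt (galRes F K).ker (H42.resF F (H42.QSx S)) (((inflKCo S F K hK).f n).hom c) := by
  refine ⟨fun g s hs => ?_, fun g s hs => ?_⟩
  · rw [inflKCo_apply, inflKCo_apply]
    congr 2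
    funext i
    rw [Pi.mul_apply, map_mul, MonoidHom.mem_ker.mp (hs i), mul_one]
  · rw [inflKCo_apply]
    have e := Rep.hom_comm_apply (unitsToQS S F K hK) s (c fun i => galRes F K (g i))
    rw [← e]
    congr 1
    show (Rep.ofAlgebraAutOnUnits ↥F ↥K).ρ (galRes F K s) _ = _
    rw [MonoidHom.mem_ker.mp hs, map_one]
    rfl

theorem isLC_inflKCo {n : ℕ}
    (c : (Fin n → (↥K ≃ₐ[↥F] ↥K)) → Rep.ofAlgebraAutOnUnits ↥F ↥K) :
    IsLC (H42.fieldDatum S F) (H42.resF F (H42.QSx S)) (((inflKCo S F K hK).f n).hom c) := by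
  obtain ⟨N, hN, hNn, hle⟩ := isOpenN_ker_galRes F K S hK
  exact ⟨N, hN, hNn, (isLCAt_inflKCo S F K hK c).mono hle⟩

/-- Inflation is injective on cochains. -/
theorem inflKCo_injective (n : ℕ) : Function.Injective ((inflKCo S F K hK).f n).hom := by
  intro c c' h
  funext σ
  apply unitsToQS_injective S F K hK
  have h1 := congrFun h (fun i => Function.surjInv (galRes_surjective F K) (σ i))
  rw [inflKCo_apply, inflKCo_apply] at h1
  have e : (fun i => galRes F K (Function.surjInv (galRes_surjective F K) (σ i))) = σ :=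
    funext fun i => Function.surjInv_eq _ _
  rw [e] at h1
  exact h1

/-- Inflation commutes with the differentials (element form). -/
theorem inflKCo_d (n : ℕ)
    (c : (Fin n → (↥K ≃ₐ[↥F] ↥K)) → Rep.ofAlgebraAutOnUnits ↥F ↥K) :
    ((inflKCo S F K hK).f (n + 1)).hom
        ((inhomogeneousCochains.d (Rep.ofAlgebraAutOnUnits ↥F ↥K) n).hom c) =
      (inhomogeneousCochains.d (H42.resF F (H42.QSx S)) n).hom
        (((inflKCo S F K hK).f n).hom c) := by
  have e := LinearMap.congr_fun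
    (ModuleCat.hom_ext_iff.mp ((inflKCo S F K hK).comm n (n + 1))) c
  simp only [inhomogeneousCochains, CochainComplex.of_d] at e
  exact e.symm

/-- Inflation, as a morphism to the complex of level-constant cochains. -/
def inflKLc :
    inhomogeneousCochains (Rep.ofAlgebraAutOnUnits ↥F ↥K) ⟶
      lcComplex (H42.fieldDatum S F) (H42.resF F (H42.QSx S)) where
  f n := ModuleCat.ofHom
    (LinearMap.codRestrict (lcCochains (H42.fieldDatum S F) (H42.resF F (H42.QSx S)) n)
      ((inflKCo S F K hK).f n).hom fun c => isLC_inflKCo S F K hK c)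
  comm' i j (hij : _ = _) := by
    subst hij
    refine ModuleCat.hom_ext (LinearMap.ext fun c => Subtype.ext ?_)
    have e := inflKCo_d S F K hK i c
    simp only [lcComplex, inhomogeneousCochains, CochainComplex.of_d]
    exact e.symm

theorem inflKLc_coe (n : ℕ)
    (c : (Fin n → (↥K ≃ₐ[↥F] ↥K)) → Rep.ofAlgebraAutOnUnits ↥F ↥K) :
    (((inflKLc S F K hK).f n).hom c :
        lcCochains (H42.fieldDatum S F) (H42.resF F (H42.QSx S)) n).1 =
      ((inflKCo S F K hK).f n).hom c := rfl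

theorem inflKLc_injective (n : ℕ) : Function.Injective ((inflKLc S F K hK).f n).hom := by
  intro c c' h
  apply inflKCo_injective S F K hK n
  have := congrArg Subtype.val h
  exact this

theorem inflKLc_d (n : ℕ)
    (c : (inhomogeneousCochains (Rep.ofAlgebraAutOnUnits ↥F ↥K)).X n) :
    ((inflKLc S F K hK).f (n + 1)).hom
        (((inhomogeneousCochains (Rep.ofAlgebraAutOnUnits ↥F ↥K)).d n (n + 1)).hom c) =
      ((lcComplex (H42.fieldDatum S F) (H42.resF F (H42.QSx S))).d n (n + 1)).hom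
        (((inflKLc S F K hK).f n).hom c) := by
  have e := LinearMap.congr_fun
    (ModuleCat.hom_ext_iff.mp ((inflKLc S F K hK).comm n (n + 1))) c
  exact e.symm

/-- A cochain of `Gal(ℚ̄/F)` with values in `ℚ_S^×` of level `N ⊆ K` is inflated from the
layer `K`. -/
theorem exists_inflKCo_eq {n : ℕ}
    (z : (Fin n → ↥F.fixingSubgroup) → H42.resF F (H42.QSx S))
    (N : IntermediateField ℚ Qb) (hNK : N ≤ K.restrictScalars ℚ)
    (hz : IsLCAt ((H42.fieldDatum S F).sub N) (H42.resF F (H42.QSx S)) z) :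
    ∃ c : (Fin n → (↥K ≃ₐ[↥F] ↥K)) → Rep.ofAlgebraAutOnUnits ↥F ↥K,
      ((inflKCo S F K hK).f n).hom c = z := by
  have hval : ∀ g, ((H42.unitsRep.val (H := H42.qsUnits S) (hH := H42.qsStable S) (z g) : Qbˣ)
      : Qb) ∈ K := by
    intro g
    have hfix : ((H42.unitsRep.val (H := H42.qsUnits S) (hH := H42.qsStable S) (z g) : Qbˣ)
        : Qb) ∈ IntermediateField.fixedField (K.restrictScalars ℚ).fixingSubgroup := by
      rw [IntermediateField.mem_fixedField_iff]
      intro τ hτ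
      obtain ⟨hτF, hker⟩ := mem_ker_galRes_of_fixing F K τ hτ
      have h1 := hz.2 g ⟨τ, hτF⟩ (ker_galRes_le_sub F K S N hNK hker)
      have h2 := congrArg (fun m => ((H42.unitsRep.val (H := H42.qsUnits S)
        (hH := H42.qsStable S) m : Qbˣ) : Qb)) h1
      exact h2
    rw [InfiniteGalois.fixedField_fixingSubgroup] at hfix
    exact hfix
  let lift : (↥K ≃ₐ[↥F] ↥K) → ↥F.fixingSubgroup := Function.surjInv (galRes_surjective F K)
  have hlift : ∀ σ, galRes F K (lift σ) = σ := Function.surjInv_eq _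
  have hne : ∀ σ : Fin n → (↥K ≃ₐ[↥F] ↥K),
      (⟨_, hval fun i => lift (σ i)⟩ : ↥K) ≠ 0 := fun σ h =>
    (H42.unitsRep.val (H := H42.qsUnits S) (hH := H42.qsStable S)
      (z fun i => lift (σ i))).ne_zero (congrArg Subtype.val h)
  refine ⟨fun σ => (Additive.ofMul (Units.mk0 (⟨_, hval fun i => lift (σ i)⟩ : ↥K) (hne σ) :
    (↥K)ˣ) : Additive (↥K)ˣ), ?_⟩
  funext g
  have e : z (fun i => lift (galRes F K (g i))) = z g := by
    refine hz.congr fun i => ker_galRes_le_sub F K S N hNK ?_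
    rw [MonoidHom.mem_ker, map_mul, map_inv, hlift, inv_mul_cancel]
  refine H42.unitsRep.val_injective (H := H42.qsUnits S) (hH := H42.qsStable S) ?_
  apply Units.ext
  show ((H42.unitsRep.val (H := H42.qsUnits S) (hH := H42.qsStable S)
    (z fun i => lift (galRes F K (g i))) : Qbˣ) : Qb) = _
  rw [e]

end Cochains

section Trans

variable (S : Finset Nat.Primes) (F : IntermediateField ℚ Qb) {K K' : IntermediateField ↥F Qb}
  [Normal ↥F ↥K] [Normal ↥F ↥K']

/-- `(φ, f)` is an inflation datum from the layer `K` to the layer `K'`: `φ` is compatible with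
the restrictions from `Gal(ℚ̄/F)` and `f` with the inclusions of units into `ℚ̄ˣ`. -/
def IsLayerInfl (φ : (↥K' ≃ₐ[↥F] ↥K') →* (↥K ≃ₐ[↥F] ↥K))
    (f : Rep.res φ (Rep.ofAlgebraAutOnUnits ↥F ↥K) ⟶ Rep.ofAlgebraAutOnUnits ↥F ↥K') : Prop :=
  φ.comp (galRes F K') = galRes F K ∧
    ∀ u : Additive (↥K)ˣ,
      unitsIncl F K' (Additive.toMul (show Additive (↥K')ˣ from f.hom u)) =
        unitsIncl F K (Additive.toMul u)

variable {F} in
/-- Inflation to `Gal(ℚ̄/F)` factors through an inflation datum between layers (cochain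
level). -/
theorem IsLayerInfl.comp_inflKLc {φ : (↥K' ≃ₐ[↥F] ↥K') →* (↥K ≃ₐ[↥F] ↥K)}
    {f : Rep.res φ (Rep.ofAlgebraAutOnUnits ↥F ↥K) ⟶ Rep.ofAlgebraAutOnUnits ↥F ↥K'}
    (h : IsLayerInfl F φ f) (hK : (K.restrictScalars ℚ).IsUnramifiedOutside S)
    (hK' : (K'.restrictScalars ℚ).IsUnramifiedOutside S) :
    cochainsMap φ f ≫ inflKLc S F K' hK' = inflKLc S F K hK := by
  ext n : 1
  refine ModuleCat.hom_ext (LinearMap.ext fun c => Subtype.ext (funext fun γ => ?_))
  refine H42.unitsRep.val_injective (H := H42.qsUnits S) (hH := H42.qsStable S) ?_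
  have e : (fun i => φ (galRes F K' (γ i))) = fun i => galRes F K (γ i) :=
    funext fun i => DFunLike.congr_fun h.1 (γ i)
  show unitsIncl F K' (Additive.toMul
      (show Additive (↥K')ˣ from f.hom (c fun i => φ (galRes F K' (γ i))))) =
    unitsIncl F K (Additive.toMul (show Additive (↥K)ˣ from c fun i => galRes F K (γ i)))
  rw [e]
  exact h.2 _

/-- The algebra structure of `K'` over `K` for `K ≤ K'`. -/
@[reducible] def layerAlgebra (h : K ≤ K') : Algebra ↥K ↥K' :=
  (IntermediateField.inclusion h).toRingHom.toAlgebra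

omit [Normal ↥F ↥K] [Normal ↥F ↥K'] in
theorem layerTower (h : K ≤ K') :
    letI := layerAlgebra F h
    IsScalarTower ↥F ↥K ↥K' :=
  letI := layerAlgebra F h
  IsScalarTower.of_algebraMap_eq fun _ => rfl

/-- Restriction `Gal(K'/F) →* Gal(K/F)` for layers `K ≤ K'`. -/
def layerRes (h : K ≤ K') : (↥K' ≃ₐ[↥F] ↥K') →* (↥K ≃ₐ[↥F] ↥K) :=
  letI := layerAlgebra F h
  haveI := layerTower F h
  AlgEquiv.restrictNormalHom (F := ↥F) (K₁ := ↥K') ↥K

omit [Normal ↥F ↥K'] in
theorem layerRes_apply (h : K ≤ K') (σ : ↥K' ≃ₐ[↥F] ↥K') (x : ↥K) :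
    ((layerRes F h σ x : ↥K) : Qb) = ((σ ⟨x, h x.2⟩ : ↥K') : Qb) := by
  let _ := layerAlgebra F h
  have := layerTower F h
  exact congrArg Subtype.val (AlgEquiv.restrictNormal_commutes σ ↥K x)

/-- The inclusion `Kˣ → K'ˣ` as a morphism of representations of `Gal(K'/F)`. -/
def layerIncl (h : K ≤ K') :
    Rep.res (layerRes F h) (Rep.ofAlgebraAutOnUnits ↥F ↥K) ⟶ Rep.ofAlgebraAutOnUnits ↥F ↥K' :=
  letI := layerAlgebra F h
  haveI := layerTower F h
  Rep.ofHom ⟨(MonoidHom.toAdditive (Units.map (algebraMap ↥K ↥K' : ↥K →* ↥K'))).toIntLinearMap,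
    fun σ => LinearMap.ext fun u => congrArg Additive.ofMul (Units.ext
      (AlgEquiv.restrictNormal_commutes σ ↥K ((Additive.toMul (α := (↥K)ˣ) u : (↥K)ˣ) : ↥K)))⟩

/-- The canonical inflation datum between layers `K ≤ K'`. -/
theorem isLayerInfl_layer (h : K ≤ K') : IsLayerInfl F (layerRes F h) (layerIncl F h) := by
  refine ⟨MonoidHom.ext fun γ => AlgEquiv.ext fun x => Subtype.ext ?_, fun u => Units.ext rfl⟩
  show ((layerRes F h (galRes F K' γ) x : ↥K) : Qb) = _
  rw [layerRes_apply, galRes_apply, galRes_apply]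

end Trans

end Fermat.Agent.S55.H74

end
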