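/-
Program C (S55), package C9b, leaf (FL-Q) (helper74): the FINITE-LEVEL PRESENTATION of the
level-constant cohomology of `G_S(F)` with coefficients in `ℚ_S^×`, in direct Galois form.
Cohomology level.

`F ⊆ ℚ̄`, `Γ = Gal(ℚ̄/F)`, `D = H42.fieldDatum S F`, `M = H42.resF F (H42.QSx S)`.
A layer (`QSLayer S F`) is an intermediate field `K` of `ℚ̄ / F`, normal over `F`, with
`K.restrictScalars ℚ` unramified outside `S`; it is finite Galois over `F`.

* `inflK S F K hK n : Hⁿ(Gal(K/F), Kˣ) →+ Hlc D M n` (inflation; on cochains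
  `c ↦ (γ ↦ c (γ|K))`, see `inflK_Hmk`);
* **(Q3)** `inflK_map` : `inflK K' ∘ Hⁿ(φ, f) = inflK K` for every inflation datum `(φ, f)`
  between layers (`IsLayerInfl`), in particular for the canonical one
  (`layerRes`, `layerIncl`; `inflK_layer`);
* **(Q1)** `exists_layer_inflK_eq` : every class of `Hlc D M n` is inflated from a layer
  containing a given one;
* **(Q2)** `exists_layer_map_eq_zero` : a class of a layer `K` whose inflation vanishes already
  vanishes in a bigger layer `K'`.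
-/
import Mathlib
import Fermat.Agent.S55.H74.GalLayer
import Fermat.Agent.S55.H62.HomologyElt

set_option autoImplicit false

open CategoryTheory groupCohomology

noncomputable section

namespace Fermat.Agent.S55.H74

open Fermat.Agent.S55.H49 Fermat.Agent.S55

local notation "Qb" => AlgebraicClosure ℚ
local notation "GQ" => (AlgebraicClosure ℚ ≃ₐ[ℚ] AlgebraicClosure ℚ)

local instance isAlgebraicQbar_h74H : Algebra.IsAlgebraic ℚ (AlgebraicClosure ℚ) :=
  AlgebraicClosure.isAlgebraic ℚ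
local instance isAlgClosureQbar_h74H : IsAlgClosure ℚ (AlgebraicClosure ℚ) :=
  ⟨inferInstance, inferInstance⟩
local instance isGaloisQbar_h74H : IsGalois ℚ (AlgebraicClosure ℚ) :=
  IsAlgClosure.isGalois ℚ (AlgebraicClosure ℚ)
local instance normalQbar_h74H : Normal ℚ (AlgebraicClosure ℚ) :=
  IsAlgClosure.normal ℚ (AlgebraicClosure ℚ)

/-! ### Layers -/

/-- For `N'` normal over `ℚ`, the compositum `F N'` is normal over `F`. -/
theorem normal_extendScalars_sup (F N' : IntermediateField ℚ Qb) (hN' : Normal ℚ ↥N') :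
    Normal ↥F ↥(IntermediateField.extendScalars (le_sup_left : F ≤ F ⊔ N')) := by
  have := normal_over F
  rw [IntermediateField.normal_iff_forall_map_le']
  rintro σ _ ⟨x, hx, rfl⟩
  have hx' : x ∈ F ⊔ N' := (IntermediateField.mem_extendScalars _).mp hx
  refine (IntermediateField.mem_extendScalars _).mpr ?_
  have hle : F ⊔ N' ≤ (F ⊔ N').comap
      (((σ.restrictScalars ℚ : Qb ≃ₐ[ℚ] Qb)) : Qb →ₐ[ℚ] Qb) := by
    refine sup_le (fun y hy => ?_) (fun y hy => ?_)
    · show σ y ∈ F ⊔ N'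
      have e : σ y = y := σ.commutes ⟨y, hy⟩
      rw [e]
      exact (le_sup_left : F ≤ F ⊔ N') hy
    · show σ y ∈ F ⊔ N'
      have h1 : N'.map (((σ.restrictScalars ℚ : Qb ≃ₐ[ℚ] Qb)) : Qb →ₐ[ℚ] Qb) ≤ N' :=
        (IntermediateField.normal_iff_forall_map_le' (K := N')).mp hN' (σ.restrictScalars ℚ)
      exact (le_sup_right : N' ≤ F ⊔ N') (h1 ⟨y, hy, rfl⟩)
  exact hle hx'

/-- Every layer and every level unramified outside `S` are contained in a layer. -/
theorem exists_layer_ge (S : Finset Nat.Primes) (F : IntermediateField ℚ Qb)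
    (K₀ : IntermediateField ↥F Qb) [Normal ↥F ↥K₀]
    (hK₀ : (K₀.restrictScalars ℚ).IsUnramifiedOutside S) (N : IntermediateField ℚ Qb)
    (hN : N.IsUnramifiedOutside S) :
    ∃ K : IntermediateField ↥F Qb, Normal ↥F ↥K ∧
      (K.restrictScalars ℚ).IsUnramifiedOutside S ∧ K₀ ≤ K ∧ N ≤ K.restrictScalars ℚ := by
  obtain ⟨N', hN', hNN', -, hgal⟩ := H43.exists_normal_level hN
  have hF : F.IsUnramifiedOutside S := hK₀.of_le (le_restrictScalars F K₀)
  have hnE := normal_extendScalars_sup F N' hgal.to_normal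
  have hres : (K₀ ⊔ IntermediateField.extendScalars (le_sup_left : F ≤ F ⊔ N')).restrictScalars ℚ
      = K₀.restrictScalars ℚ ⊔ (F ⊔ N') :=
    (IntermediateField.restrictScalars_sup ℚ K₀
      (IntermediateField.extendScalars (le_sup_left : F ≤ F ⊔ N'))).symm.trans
      (congrArg (K₀.restrictScalars ℚ ⊔ ·)
        (IntermediateField.extendScalars_restrictScalars (le_sup_left : F ≤ F ⊔ N')))
  refine ⟨K₀ ⊔ IntermediateField.extendScalars (le_sup_left : F ≤ F ⊔ N'),
    IntermediateField.normal_sup _ _ _ _, ?_, le_sup_left, ?_⟩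
  · rw [hres]
    exact hK₀.sup (hF.sup hN')
  · rw [hres]
    exact hNN'.trans (le_sup_right.trans le_sup_right)

/-- A finite Galois layer `K/F` inside `ℚ_S`. -/
structure QSLayer (S : Finset Nat.Primes) (F : IntermediateField ℚ Qb) where
  /-- the top field of the layer -/
  K : IntermediateField ↥F Qb
  normal : Normal ↥F ↥K
  unr : (K.restrictScalars ℚ).IsUnramifiedOutside S

attribute [instance] QSLayer.normal

namespace QSLayer

variable {S : Finset Nat.Primes} {F : IntermediateField ℚ Qb}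

/-- The bottom layer `F/F`. -/
def bot (hF : F.IsUnramifiedOutside S) : QSLayer S F where
  K := ⊥
  normal := inferInstance
  unr := by
    have e : (⊥ : IntermediateField ↥F Qb).restrictScalars ℚ = F :=
      IntermediateField.restrictScalars_bot_eq_self F
    rw [e]
    exact hF

/-- The compositum of two layers. -/
def sup (L L' : QSLayer S F) : QSLayer S F where
  K := L.K ⊔ L'.K
  normal := IntermediateField.normal_sup _ _ _ _
  unr := by
    have e : (L.K ⊔ L'.K).restrictScalars ℚ = L.K.restrictScalars ℚ ⊔ L'.K.restrictScalars ℚ :=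
      (IntermediateField.restrictScalars_sup ℚ L.K L'.K).symm
    rw [e]
    exact L.unr.sup L'.unr

theorem finiteDimensional_rat (L : QSLayer S F) : FiniteDimensional ℚ ↥L.K := L.unr.1

instance finiteDimensional (L : QSLayer S F) : FiniteDimensional ↥F ↥L.K :=
  have := L.finiteDimensional_rat
  Module.Finite.right ℚ ↥F ↥L.K

instance isGalois (L : QSLayer S F) : IsGalois ↥F ↥L.K :=
  have : Algebra.IsSeparable ↥F ↥L.K := Algebra.IsAlgebraic.isSeparable_of_perfectField
  IsGalois.mk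

theorem base_unr (L : QSLayer S F) : F.IsUnramifiedOutside S :=
  L.unr.of_le (le_restrictScalars F L.K)

end QSLayer

/-! ### Inflation on cohomology -/

section Infl

variable (S : Finset Nat.Primes) (F : IntermediateField ℚ Qb)

/-- Inflation `Hⁿ(Gal(K/F), Kˣ) →+ Hⁿ_lc(G_S(F), ℚ_S^×)` from a layer `K`. -/
def inflK (K : IntermediateField ↥F Qb) [Normal ↥F ↥K]
    (hK : (K.restrictScalars ℚ).IsUnramifiedOutside S) (n : ℕ) :
    groupCohomology (Rep.ofAlgebraAutOnUnits ↥F ↥K) n →+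
      Hlc (H42.fieldDatum S F) (H42.resF F (H42.QSx S)) n :=
  (HomologicalComplex.homologyMap (inflKLc S F K hK) n).hom.toAddMonoidHom

/-- Cochain formula for `inflK`: the class of a cocycle `c` goes to the class of
`γ ↦ c (γ|K)` (viewed in `ℚ_S^×`). -/
theorem inflK_Hmk (K : IntermediateField ↥F Qb) [Normal ↥F ↥K]
    (hK : (K.restrictScalars ℚ).IsUnramifiedOutside S) (n : ℕ)
    (c : (inhomogeneousCochains (Rep.ofAlgebraAutOnUnits ↥F ↥K)).X n)
    (hc : ((inhomogeneousCochains (Rep.ofAlgebraAutOnUnits ↥F ↥K)).d n (n + 1)).hom c = 0) :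
    inflK S F K hK n (H62.Hmk (inhomogeneousCochains (Rep.ofAlgebraAutOnUnits ↥F ↥K)) n c hc) =
      H62.Hmk (lcComplex (H42.fieldDatum S F) (H42.resF F (H42.QSx S))) n
        (((inflKLc S F K hK).f n).hom c) (H62.map_d_eq_zero (inflKLc S F K hK) n c hc) :=
  H62.homologyMap_Hmk (inflKLc S F K hK) n c hc

/-- **(Q3)** Inflation to `G_S(F)` is compatible with every inflation datum between layers. -/
theorem inflK_map {K K' : IntermediateField ↥F Qb} [Normal ↥F ↥K] [Normal ↥F ↥K']
    (hK : (K.restrictScalars ℚ).IsUnramifiedOutside S)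
    (hK' : (K'.restrictScalars ℚ).IsUnramifiedOutside S)
    {φ : (↥K' ≃ₐ[↥F] ↥K') →* (↥K ≃ₐ[↥F] ↥K)}
    {f : Rep.res φ (Rep.ofAlgebraAutOnUnits ↥F ↥K) ⟶ Rep.ofAlgebraAutOnUnits ↥F ↥K'}
    (h : IsLayerInfl F φ f) (n : ℕ) (a : groupCohomology (Rep.ofAlgebraAutOnUnits ↥F ↥K) n) :
    inflK S F K' hK' n ((groupCohomology.map φ f n).hom a) = inflK S F K hK n a := by
  have e := congrArg (fun ψ => HomologicalComplex.homologyMap ψ n) (h.comp_inflKLc S hK hK')
  simp only [HomologicalComplex.homologyMap_comp] at e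
  exact LinearMap.congr_fun (ModuleCat.hom_ext_iff.mp e) a

/-- **(Q3)** for the canonical inflation datum between layers `K ≤ K'`. -/
theorem inflK_layer {K K' : IntermediateField ↥F Qb} [Normal ↥F ↥K] [Normal ↥F ↥K']
    (hK : (K.restrictScalars ℚ).IsUnramifiedOutside S)
    (hK' : (K'.restrictScalars ℚ).IsUnramifiedOutside S) (h : K ≤ K') (n : ℕ)
    (a : groupCohomology (Rep.ofAlgebraAutOnUnits ↥F ↥K) n) :
    inflK S F K' hK' n ((groupCohomology.map (layerRes F h) (layerIncl F h) n).hom a) =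
      inflK S F K hK n a :=
  inflK_map S F hK hK' (isLayerInfl_layer F h) n a

/-- **(Q1)** Every class of `Hⁿ_lc(G_S(F), ℚ_S^×)` is inflated from a layer containing a given
layer. -/
theorem exists_layer_inflK_eq (n : ℕ)
    (x : Hlc (H42.fieldDatum S F) (H42.resF F (H42.QSx S)) n) (L₀ : QSLayer S F) :
    ∃ L : QSLayer S F, L₀.K ≤ L.K ∧
      ∃ a : groupCohomology (Rep.ofAlgebraAutOnUnits ↥F ↥L.K) n, inflK S F L.K L.unr n a = x := by
  obtain ⟨z, hz, hzx⟩ :=
    H62.Hmk_surjective (lcComplex (H42.fieldDatum S F) (H42.resF F (H42.QSx S))) n x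
  obtain ⟨N, hN, -, hLC⟩ :=
    (z : lcCochains (H42.fieldDatum S F) (H42.resF F (H42.QSx S)) n).2
  obtain ⟨K, hKn, hKu, hle, hNK⟩ := exists_layer_ge S F L₀.K L₀.unr N hN
  obtain ⟨c, hc⟩ := exists_inflKCo_eq S F K hKu
    (z : lcCochains (H42.fieldDatum S F) (H42.resF F (H42.QSx S)) n).1 N hNK hLC
  have hinf : ((inflKLc S F K hKu).f n).hom c = z := Subtype.ext hc
  have hcoc : ((inhomogeneousCochains (Rep.ofAlgebraAutOnUnits ↥F ↥K)).d n (n + 1)).hom c = 0 := by
    apply inflKLc_injective S F K hKu (n + 1)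
    rw [inflKLc_d, hinf, hz, map_zero]
  refine ⟨⟨K, hKn, hKu⟩, hle,
    H62.Hmk (inhomogeneousCochains (Rep.ofAlgebraAutOnUnits ↥F ↥K)) n c hcoc, ?_⟩
  rw [← hzx]
  exact (H62.homologyMap_Hmk (inflKLc S F K hKu) n c hcoc).trans
    (H62.Hmk_congr (lcComplex (H42.fieldDatum S F) (H42.resF F (H42.QSx S))) n hinf _)

/-- **(Q2)** A class of a layer `K` whose inflation to `G_S(F)` vanishes already vanishes in a
bigger layer `K'` (for every inflation datum from `K` to `K'`). -/
theorem exists_layer_map_eq_zero (K : IntermediateField ↥F Qb) [Normal ↥F ↥K]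
    (hK : (K.restrictScalars ℚ).IsUnramifiedOutside S) (n : ℕ)
    (a : groupCohomology (Rep.ofAlgebraAutOnUnits ↥F ↥K) n) (ha : inflK S F K hK n a = 0) :
    ∃ L' : QSLayer S F, K ≤ L'.K ∧
      ∀ (φ : (↥L'.K ≃ₐ[↥F] ↥L'.K) →* (↥K ≃ₐ[↥F] ↥K))
        (f : Rep.res φ (Rep.ofAlgebraAutOnUnits ↥F ↥K) ⟶ Rep.ofAlgebraAutOnUnits ↥F ↥L'.K),
        IsLayerInfl F φ f → (groupCohomology.map φ f n).hom a = 0 := by
  obtain ⟨c, hc, rfl⟩ :=
    H62.Hmk_surjective (inhomogeneousCochains (Rep.ofAlgebraAutOnUnits ↥F ↥K)) n a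
  have h1 : H62.Hmk (lcComplex (H42.fieldDatum S F) (H42.resF F (H42.QSx S))) n
      (((inflKLc S F K hK).f n).hom c) (H62.map_d_eq_zero (inflKLc S F K hK) n c hc) = 0 :=
    (H62.homologyMap_Hmk (inflKLc S F K hK) n c hc).symm.trans ha
  cases n with
  | zero =>
    rw [H62.Hmk_zero_eq_zero_iff] at h1
    have hc0 : c = 0 := by
      apply inflKLc_injective S F K hK 0
      rw [h1, map_zero]
    refine ⟨⟨K, inferInstance, hK⟩, le_rfl, fun φ f _ => ?_⟩
    subst hc0
    have h0 : H62.Hmk (inhomogeneousCochains (Rep.ofAlgebraAutOnUnits ↥F ↥K)) 0 0 hc = 0 :=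
      H62.Hmk_zero _ 0 hc
    exact (congrArg (groupCohomology.map φ f 0).hom h0).trans
      (map_zero (groupCohomology.map φ f 0).hom)
  | succ n =>
    rw [H62.Hmk_succ_eq_zero_iff] at h1
    obtain ⟨w, hw⟩ := h1
    obtain ⟨N, hN, -, hLC⟩ :=
      (w : lcCochains (H42.fieldDatum S F) (H42.resF F (H42.QSx S)) n).2
    obtain ⟨K', hK'n, hK'u, hle, hNK'⟩ := exists_layer_ge S F K hK N hN
    refine ⟨⟨K', hK'n, hK'u⟩, hle, fun φ f hφf => ?_⟩
    obtain ⟨wbar, hwbar⟩ := exists_inflKCo_eq S F K' hK'u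
      (w : lcCochains (H42.fieldDatum S F) (H42.resF F (H42.QSx S)) n).1 N hNK' hLC
    have hinf : ((inflKLc S F K' hK'u).f n).hom wbar = w := Subtype.ext hwbar
    have hd : ((inhomogeneousCochains (Rep.ofAlgebraAutOnUnits ↥F ↥K')).d n (n + 1)).hom wbar =
        ((cochainsMap φ f).f (n + 1)).hom c := by
      apply inflKLc_injective S F K' hK'u (n + 1)
      rw [inflKLc_d, hinf, hw]
      have e := congrArg (fun ψ => (HomologicalComplex.Hom.f ψ (n + 1)))
        (hφf.comp_inflKLc S hK hK'u)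
      have e' := LinearMap.congr_fun (ModuleCat.hom_ext_iff.mp e) c
      exact e'.symm
    have h2 := H62.homologyMap_Hmk (cochainsMap φ f) (n + 1) c hc
    have h3 : (groupCohomology.map φ f (n + 1)).hom
        (H62.Hmk (inhomogeneousCochains (Rep.ofAlgebraAutOnUnits ↥F ↥K)) (n + 1) c hc) =
        H62.Hmk (inhomogeneousCochains (Rep.ofAlgebraAutOnUnits ↥F ↥K')) (n + 1)
          (((cochainsMap φ f).f (n + 1)).hom c)
          (H62.map_d_eq_zero (cochainsMap φ f) (n + 1) c hc) := h2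
    rw [h3]
    exact (H62.Hmk_succ_eq_zero_iff
      (inhomogeneousCochains (Rep.ofAlgebraAutOnUnits ↥F ↥K')) n _ _).2 ⟨wbar, hd⟩

end Infl

end Fermat.Agent.S55.H74

end
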