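/-
Program C (S55), package C9b, leaf (FL-Q) (helper74): the finite-level presentation of
`Hⁿ_lc(G_S(F), ℚ_S^×)` as an `H70.Pres` (the shape consumed by `H70.GSData`), and descent.

* `presQS S F hF n : H70.Pres (Hlc (H42.fieldDatum S F) (H42.resF F (H42.QSx S)) n)` with
  `ι = QSLayer S F`, `A L = Hⁿ(Gal(L.K/F), L.Kˣ)`, `le L L' = (L.K ≤ L'.K)`,
  `tr = Hⁿ(layerRes, layerIncl)`, `φ L = inflK S F L.K L.unr n`;
* `exists_unique_descK` : a family of additive maps on the layers, compatible with the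
  canonical inflations, glues to a unique additive map on `Hⁿ_lc(G_S(F), ℚ_S^×)`.
-/
import Mathlib
import Fermat.Agent.S55.H74.GalLayerH
import Fermat.Agent.S55.H70.GSLimit

set_option autoImplicit false

open CategoryTheory groupCohomology

noncomputable section

namespace Fermat.Agent.S55.H74

open Fermat.Agent.S55.H49 Fermat.Agent.S55

local notation "Qb" => AlgebraicClosure ℚ

variable (S : Finset Nat.Primes) (F : IntermediateField ℚ Qb)

/-- The canonical transition map `Hⁿ(Gal(K/F), Kˣ) →+ Hⁿ(Gal(K'/F), K'ˣ)` for layers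
`K ≤ K'`. -/
def layerTr {K K' : IntermediateField ↥F Qb} [Normal ↥F ↥K] [Normal ↥F ↥K'] (h : K ≤ K')
    (n : ℕ) :
    groupCohomology (Rep.ofAlgebraAutOnUnits ↥F ↥K) n →+
      groupCohomology (Rep.ofAlgebraAutOnUnits ↥F ↥K') n :=
  (groupCohomology.map (layerRes F h) (layerIncl F h) n).hom.toAddMonoidHom

theorem layerTr_apply {K K' : IntermediateField ↥F Qb} [Normal ↥F ↥K] [Normal ↥F ↥K']
    (h : K ≤ K') (n : ℕ) (a : groupCohomology (Rep.ofAlgebraAutOnUnits ↥F ↥K) n) :
    layerTr F h n a = (groupCohomology.map (layerRes F h) (layerIncl F h) n).hom a := rfl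

/-- The finite-level presentation of `Hⁿ_lc(G_S(F), ℚ_S^×)` by the finite Galois layers `K/F`
inside `ℚ_S`. -/
def presQS (hF : F.IsUnramifiedOutside S) (n : ℕ) :
    H70.Pres (Hlc (H42.fieldDatum S F) (H42.resF F (H42.QSx S)) n) where
  ι := QSLayer S F
  A L := groupCohomology (Rep.ofAlgebraAutOnUnits ↥F ↥L.K) n
  le L L' := L.K ≤ L'.K
  tr L L' h := layerTr F h n
  φ L := inflK S F L.K L.unr n
  directed L L' := ⟨L.sup L', le_sup_left, le_sup_right⟩
  compat L L' h a := inflK_layer S F L.unr L'.unr h n a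
  surj x := by
    obtain ⟨L, -, a, ha⟩ := exists_layer_inflK_eq S F n x (QSLayer.bot hF)
    exact ⟨L, a, ha⟩
  ker L a ha := by
    obtain ⟨L', hle, hall⟩ := exists_layer_map_eq_zero S F L.K L.unr n a ha
    exact ⟨L', hle, hall _ _ (isLayerInfl_layer F hle)⟩

/-- **Descent**: a family of additive maps on the layers, compatible with the canonical
inflations, glues to a unique additive map on `Hⁿ_lc(G_S(F), ℚ_S^×)`. -/
theorem exists_unique_descK (hF : F.IsUnramifiedOutside S) (n : ℕ) {T : Type} [AddCommGroup T]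
    (l : ∀ L : QSLayer S F, groupCohomology (Rep.ofAlgebraAutOnUnits ↥F ↥L.K) n →+ T)
    (hl : ∀ (L L' : QSLayer S F) (h : L.K ≤ L'.K)
      (a : groupCohomology (Rep.ofAlgebraAutOnUnits ↥F ↥L.K) n),
      l L' (layerTr F h n a) = l L a) :
    ∃! Φ : Hlc (H42.fieldDatum S F) (H42.resF F (H42.QSx S)) n →+ T,
      ∀ (L : QSLayer S F) (a : groupCohomology (Rep.ofAlgebraAutOnUnits ↥F ↥L.K) n),
        Φ (inflK S F L.K L.unr n a) = l L a := by
  obtain ⟨Φ, hΦ⟩ := (presQS S F hF n).desc l hl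
  refine ⟨Φ, hΦ, fun Ψ hΨ => ?_⟩
  ext x
  obtain ⟨L, a, rfl⟩ := (presQS S F hF n).surj x
  exact (hΨ L a).trans (hΦ L a).symm

end Fermat.Agent.S55.H74

end
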