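/-
Program C (S55), package C9b, leaf (FL-Q) (helper74): the Galois-indexed finite-level
presentation in the vocabulary of C8 / C5 (`H29.Layer`, `H88.layerOf`, `H88.inflOf`) and of
`H70.GSCoh` (`H70.HQ`).

* `QSLayer.layer L = H88.layerOf ↥F ↥L.K`, `QSLayer.infl L L' h = H88.inflOf ↥F ↥L.K ↥L'.K`
  (for the inclusion algebra structure `layerAlgebra F h`);
* `galPres S F hF n : H70.Pres (H70.HQ S F n)` with `ι = QSLayer S F`,
  `A L = groupCohomology L.layer.M n`, `le L L' = (L.K ≤ L'.K)`,
  `tr L L' h = (L.infl L' h).mapN n`, `φ L = inflK S F L.K L.unr n`.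
-/
import Mathlib
import Fermat.Agent.S55.H74.GalLayerPres
import Fermat.Agent.S55.H88.LayerDefs
import Fermat.Agent.S55.H29.C8Export
import Fermat.Agent.S55.H70.GSCoh

set_option autoImplicit false

open CategoryTheory groupCohomology

noncomputable section

namespace Fermat.Agent.S55.H74

open Fermat.Agent.S55.H49 Fermat.Agent.S55

local notation "Qb" => AlgebraicClosure ℚ

variable {S : Finset Nat.Primes} {F : IntermediateField ℚ Qb}

/-- The layer `L.K / F` in the shape consumed by C8. -/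
abbrev QSLayer.layer (L : QSLayer S F) : H29.Layer H66.QZ := H88.layerOf ↥F ↥L.K

/-- The inflation datum from the layer `L` to the layer `L'` (`L.K ≤ L'.K`) in the shape
consumed by C8: helper88's `inflOf` for the inclusion algebra structure. -/
def QSLayer.infl (L L' : QSLayer S F) (h : L.K ≤ L'.K) : H29.Layer.Infl L.layer L'.layer :=
  letI := layerAlgebra F h
  haveI := layerTower F h
  H88.inflOf ↥F ↥L.K ↥L'.K

theorem QSLayer.infl_φ (L L' : QSLayer S F) (h : L.K ≤ L'.K) :
    (L.infl L' h).φ = layerRes F h := rfl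

theorem QSLayer.infl_f (L L' : QSLayer S F) (h : L.K ≤ L'.K) :
    (L.infl L' h).f = layerIncl F h := rfl

theorem QSLayer.infl_σ (L L' : QSLayer S F) (h : L.K ≤ L'.K) :
    (L.infl L' h).σ = Equiv.refl (H88.FinPlace ↥F) := rfl

theorem layerTr_eq_mapN (L L' : QSLayer S F) (h : L.K ≤ L'.K) (n : ℕ) :
    layerTr F h n = (L.infl L' h).mapN n := rfl

theorem layerTr_two_eq_map (L L' : QSLayer S F) (h : L.K ≤ L'.K) :
    layerTr F h 2 = (L.infl L' h).map := rfl

variable (S F)

/-- The Galois-indexed finite-level presentation of `Hⁿ_lc(G_S(F), ℚ_S^×) = H70.HQ S F n`. -/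
def galPres (hF : F.IsUnramifiedOutside S) (n : ℕ) : H70.Pres (H70.HQ S F n) :=
  presQS S F hF n

theorem galPres_ι (hF : F.IsUnramifiedOutside S) (n : ℕ) :
    (galPres S F hF n).ι = QSLayer S F := rfl

theorem galPres_A (hF : F.IsUnramifiedOutside S) (n : ℕ) (L : QSLayer S F) :
    (galPres S F hF n).A L = groupCohomology L.layer.M n := rfl

theorem galPres_le (hF : F.IsUnramifiedOutside S) (n : ℕ) (L L' : QSLayer S F) :
    (galPres S F hF n).le L L' = (L.K ≤ L'.K) := rfl

theorem galPres_tr (hF : F.IsUnramifiedOutside S) (n : ℕ) (L L' : QSLayer S F)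
    (h : L.K ≤ L'.K) : (galPres S F hF n).tr L L' h = (L.infl L' h).mapN n := rfl

theorem galPres_φ (hF : F.IsUnramifiedOutside S) (n : ℕ) (L : QSLayer S F) :
    (galPres S F hF n).φ L = inflK S F L.K L.unr n := rfl

/-- (Q3) in C8 vocabulary. -/
theorem inflK_mapN (L L' : QSLayer S F) (h : L.K ≤ L'.K) (n : ℕ)
    (a : groupCohomology L.layer.M n) :
    inflK S F L'.K L'.unr n ((L.infl L' h).mapN n a) = inflK S F L.K L.unr n a :=
  inflK_layer S F L.unr L'.unr h n a

/-- (Q2) in C8 vocabulary. -/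
theorem exists_layer_mapN_eq_zero (L : QSLayer S F) (n : ℕ) (a : groupCohomology L.layer.M n)
    (ha : inflK S F L.K L.unr n a = 0) :
    ∃ (L' : QSLayer S F) (h : L.K ≤ L'.K), (L.infl L' h).mapN n a = 0 := by
  obtain ⟨L', hle, hall⟩ := exists_layer_map_eq_zero S F L.K L.unr n a ha
  exact ⟨L', hle, hall _ _ (isLayerInfl_layer F hle)⟩

end Fermat.Agent.S55.H74

end
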