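/-
Program C (S55), package C9b, leaf (FL-Q) (helper74): COCYCLE-LEVEL FORM of the Galois
finite-level presentation, in the vocabulary of the explicit cochain computations of Program C
(`H49.cyc`, `H49.cls`, `H49.lcVal`; Mathlib's low-degree `cocycles₂`, `H2π`).

* `cls_eq_Hmk`, `H2π_eq_Hmk` : dictionary between `H49.cls`, Mathlib's `H2π` and `H62.Hmk`;
* `inflK_cls` : `inflK [c] = [z]` as soon as `z (γ) = c (γ|K)` (any degree);
* `inflK_H2π` : `inflK (H2π c) = [z]` as soon as `z (γ₁, γ₂) = c (γ₁|K, γ₂|K)`;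
* `exists_layer_realise₂` : every level-constant 2-cocycle of `G_S(F)` with values in `ℚ_S^×`
  is realised by a 2-cocycle `c ∈ Z²(Gal(K/F), Kˣ)` of a layer `K` (containing a given layer);
* `exists_layer_realise_mu` : the same for a `μ_p`-valued level-constant 2-cocycle `y`, with
  `gsI2 (kuJ2 [y]) = inflK (H2π c)` (so that the descended invariants of the class of `y` are
  the finite-level invariants of `H2π c`).
-/
import Mathlib
import Fermat.Agent.S55.H74.GalLayerC8
import Fermat.Agent.S55.H49.ConeApi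
import Fermat.Agent.S55.H99.LcElt

set_option autoImplicit false

open CategoryTheory groupCohomology

noncomputable section

namespace Fermat.Agent.S55.H74

open Fermat.Agent.S55.H49 Fermat.Agent.S55

local notation "Qb" => AlgebraicClosure ℚ

/-! ### Dictionary between the three descriptions of classes -/

/-- `H49.cls` in terms of `H62.Hmk`. -/
theorem cls_eq_Hmk {k : Type} [CommRing k] (K : CochainComplex (ModuleCat.{0} k) ℕ) (n : ℕ)
    (z : cyc K n) : (cls K n).hom z = H62.Hmk K n z.1 (mem_cyc.mp z.2) :=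
  (H62.Hmk_eq_of K n z.1 (mem_cyc.mp z.2) ((cycToCycles K n).hom z)
    (iCycles_cycToCycles K n z)).symm

/-- The inhomogeneous 2-cochain attached to a function on `G × G`. -/
def coc₂ {k G : Type} [CommRing k] [Group G] (A : Rep.{0, 0, 0} k G) (c : G × G → A) :
    (inhomogeneousCochains A).X 2 :=
  (cochainsIso₂ A).inv.hom c

theorem coc₂_apply {k G : Type} [CommRing k] [Group G] (A : Rep.{0, 0, 0} k G) (c : G × G → A)
    (γ : Fin 2 → G) : (coc₂ A c : (Fin 2 → G) → A) γ = c (γ 0, γ 1) := rfl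

theorem coc₂_d {k G : Type} [CommRing k] [Group G] (A : Rep.{0, 0, 0} k G) (c : cocycles₂ A) :
    ((inhomogeneousCochains A).d 2 3).hom (coc₂ A c.1) = 0 := by
  have e := LinearMap.congr_fun (ModuleCat.hom_ext_iff.mp (comp_d₂₃_eq A)) (coc₂ A c.1)
  have e1 : (cochainsIso₂ A).hom.hom (coc₂ A c.1) = c.1 :=
    LinearMap.congr_fun (ModuleCat.hom_ext_iff.mp (cochainsIso₂ A).inv_hom_id) c.1
  have e2 : (d₂₃ A).hom ((cochainsIso₂ A).hom.hom (coc₂ A c.1)) =
      (cochainsIso₃ A).hom.hom (((inhomogeneousCochains A).d 2 3).hom (coc₂ A c.1)) := e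
  rw [e1, show (d₂₃ A).hom c.1 = 0 from c.2] at e2
  have hinj : Function.Injective (cochainsIso₃ A).hom.hom :=
    (ModuleCat.mono_iff_injective (cochainsIso₃ A).hom).mp inferInstance
  exact hinj (e2.symm.trans (map_zero _).symm)

/-- Mathlib's `H2π` in terms of `H62.Hmk`. -/
theorem H2π_eq_Hmk {k G : Type} [CommRing k] [Group G] (A : Rep.{0, 0, 0} k G)
    (c : cocycles₂ A) :
    H2π A c = H62.Hmk (inhomogeneousCochains A) 2 (coc₂ A c.1) (coc₂_d A c) := by
  have e := LinearMap.congr_fun (ModuleCat.hom_ext_iff.mp (isoCocycles₂_inv_comp_iCocycles A)) c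
  exact (H62.Hmk_eq_of (inhomogeneousCochains A) 2 (coc₂ A c.1) (coc₂_d A c)
    ((isoCocycles₂ A).inv.hom c) e).symm

/-- The low-degree 2-cocycle attached to a 2-cocycle of the inhomogeneous complex. -/
def toCocycles₂ {k G : Type} [CommRing k] [Group G] (A : Rep.{0, 0, 0} k G)
    (c : (inhomogeneousCochains A).X 2) (hc : ((inhomogeneousCochains A).d 2 3).hom c = 0) :
    cocycles₂ A :=
  ⟨(cochainsIso₂ A).hom.hom c, by
    have e := LinearMap.congr_fun (ModuleCat.hom_ext_iff.mp (comp_d₂₃_eq A)) c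
    have e2 : (d₂₃ A).hom ((cochainsIso₂ A).hom.hom c) =
        (cochainsIso₃ A).hom.hom (((inhomogeneousCochains A).d 2 3).hom c) := e
    show (d₂₃ A).hom ((cochainsIso₂ A).hom.hom c) = 0
    rw [e2, hc, map_zero]⟩

theorem toCocycles₂_apply {k G : Type} [CommRing k] [Group G] (A : Rep.{0, 0, 0} k G)
    (c : (inhomogeneousCochains A).X 2) (hc : ((inhomogeneousCochains A).d 2 3).hom c = 0)
    (g h : G) : (toCocycles₂ A c hc).1 (g, h) = (c : (Fin 2 → G) → A) ![g, h] := rfl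

/-! ### Inflation from a layer, on cocycles -/

section Infl

variable (S : Finset Nat.Primes) (F : IntermediateField ℚ Qb) (K : IntermediateField ↥F Qb)
  [Normal ↥F ↥K] (hK : (K.restrictScalars ℚ).IsUnramifiedOutside S)

/-- `inflK [c] = [z]` as soon as `z (γ) = c (γ|K)` (viewed in `ℚ_S^×`), in every degree. -/
theorem inflK_cls (n : ℕ) (c : cyc (inhomogeneousCochains (Rep.ofAlgebraAutOnUnits ↥F ↥K)) n)
    (z : cyc (lcComplex (H42.fieldDatum S F) (H42.resF F (H42.QSx S))) n)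
    (hz : ∀ γ : Fin n → ↥F.fixingSubgroup, lcVal z γ =
      (unitsToQS S F K hK).hom
        ((c.1 : (Fin n → (↥K ≃ₐ[↥F] ↥K)) → Rep.ofAlgebraAutOnUnits ↥F ↥K)
          fun i => galRes F K (γ i))) :
    inflK S F K hK n ((cls (inhomogeneousCochains (Rep.ofAlgebraAutOnUnits ↥F ↥K)) n).hom c) =
      (cls (lcComplex (H42.fieldDatum S F) (H42.resF F (H42.QSx S))) n).hom z := by
  rw [cls_eq_Hmk, cls_eq_Hmk]
  refine (inflK_Hmk S F K hK n c.1 (mem_cyc.mp c.2)).trans ?_
  have h : ((inflKLc S F K hK).f n).hom c.1 = z.1 := by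
    apply lcValC_injective
    funext γ
    exact (hz γ).symm
  exact H62.Hmk_congr _ n h _

/-- `inflK (H2π c) = [z]` as soon as `z (γ₁, γ₂) = c (γ₁|K, γ₂|K)` (viewed in `ℚ_S^×`). -/
theorem inflK_H2π (c : cocycles₂ (Rep.ofAlgebraAutOnUnits ↥F ↥K))
    (z : cyc (lcComplex (H42.fieldDatum S F) (H42.resF F (H42.QSx S))) 2)
    (hz : ∀ γ : Fin 2 → ↥F.fixingSubgroup, lcVal z γ =
      (unitsToQS S F K hK).hom (c.1 (galRes F K (γ 0), galRes F K (γ 1)))) :
    inflK S F K hK 2 (H2π (Rep.ofAlgebraAutOnUnits ↥F ↥K) c) =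
      (cls (lcComplex (H42.fieldDatum S F) (H42.resF F (H42.QSx S))) 2).hom z := by
  rw [H2π_eq_Hmk, cls_eq_Hmk]
  refine (inflK_Hmk S F K hK 2 _ _).trans ?_
  have h : ((inflKLc S F K hK).f 2).hom (coc₂ (Rep.ofAlgebraAutOnUnits ↥F ↥K) c.1) = z.1 := by
    apply lcValC_injective
    funext γ
    exact (hz γ).symm
  exact H62.Hmk_congr _ 2 h _

/-- Every level-constant 2-cocycle of `G_S(F)` with values in `ℚ_S^×` is realised by a
2-cocycle of a layer containing a given layer. -/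
theorem exists_layer_realise₂
    (z : cyc (lcComplex (H42.fieldDatum S F) (H42.resF F (H42.QSx S))) 2) (L₀ : QSLayer S F) :
    ∃ L : QSLayer S F, L₀.K ≤ L.K ∧ ∃ c : cocycles₂ (Rep.ofAlgebraAutOnUnits ↥F ↥L.K),
      (∀ γ : Fin 2 → ↥F.fixingSubgroup, lcVal z γ =
        (unitsToQS S F L.K L.unr).hom (c.1 (galRes F L.K (γ 0), galRes F L.K (γ 1)))) ∧
      inflK S F L.K L.unr 2 (H2π (Rep.ofAlgebraAutOnUnits ↥F ↥L.K) c) =
        (cls (lcComplex (H42.fieldDatum S F) (H42.resF F (H42.QSx S))) 2).hom z := by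
  obtain ⟨N, hN, -, hLC⟩ :=
    (z.1 : lcCochains (H42.fieldDatum S F) (H42.resF F (H42.QSx S)) 2).2
  obtain ⟨K, hKn, hKu, hle, hNK⟩ := exists_layer_ge S F L₀.K L₀.unr N hN
  obtain ⟨c, hc⟩ := exists_inflKCo_eq S F K hKu (lcVal z) N hNK hLC
  have hinf : ((inflKLc S F K hKu).f 2).hom c = z.1 := Subtype.ext hc
  have hcoc : ((inhomogeneousCochains (Rep.ofAlgebraAutOnUnits ↥F ↥K)).d 2 3).hom c = 0 := by
    apply inflKLc_injective S F K hKu 3
    rw [inflKLc_d, hinf, mem_cyc.mp z.2, map_zero]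
  have hreal : ∀ γ : Fin 2 → ↥F.fixingSubgroup, lcVal z γ =
      (unitsToQS S F K hKu).hom ((toCocycles₂ (Rep.ofAlgebraAutOnUnits ↥F ↥K) c hcoc).1
        (galRes F K (γ 0), galRes F K (γ 1))) := by
    intro γ
    have h1 : (unitsToQS S F K hKu).hom (c fun i => galRes F K (γ i)) = lcVal z γ :=
      congrFun hc γ
    have e : (fun i => galRes F K (γ i)) = ![galRes F K (γ 0), galRes F K (γ 1)] := by
      funext i
      fin_cases i <;> rfl
    exact h1.symm.trans (congrArg (fun g => (unitsToQS S F K hKu).hom (c g)) e)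
  exact ⟨⟨K, hKn, hKu⟩, hle, toCocycles₂ _ c hcoc, hreal, inflK_H2π S F K hKu _ z hreal⟩

end Infl

/-! ### `S`-unit-valued and `μ_p`-valued cocycles -/

section Mu

variable {S : Finset Nat.Primes} (F : IntermediateField ℚ Qb)

/-- The image in `H²(ℚ_S^×)` of the class of an `E_S`-valued cocycle `x`, realised at a layer
`K` by `c`, is `inflK (H2π c)`. -/
theorem inflK_H2π_es (K : IntermediateField ↥F Qb) [Normal ↥F ↥K]
    (hK : (K.restrictScalars ℚ).IsUnramifiedOutside S)
    (x : cyc (lcComplex (H42.fieldDatum S F) (H42.resF F (H42.ESx S))) 2)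
    (c : cocycles₂ (Rep.ofAlgebraAutOnUnits ↥F ↥K))
    (hc : ∀ γ : Fin 2 → ↥F.fixingSubgroup,
      unitsIncl F K (Additive.toMul (show Additive (↥K)ˣ from
        c.1 (galRes F K (γ 0), galRes F K (γ 1)))) =
        H42.unitsRep.val (H := H42.sUnits S) (hH := H42.esStable S)
          (lcVal (D := H42.fieldDatum S F) (M := H42.resF F (H42.ESx S)) x γ)) :
    inflK S F K hK 2 (H2π (Rep.ofAlgebraAutOnUnits ↥F ↥K) c) =
      H70.gsI2 F ((cls (lcComplex (H42.fieldDatum S F) (H42.resF F (H42.ESx S))) 2).hom x) := by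
  have h1 : H70.gsI2 F ((cls (lcComplex (H42.fieldDatum S F) (H42.resF F (H42.ESx S))) 2).hom x)
      = (cls (lcComplex (H42.fieldDatum S F) (H42.resF F (H42.QSx S))) 2).hom
        (cycMap (lcMapCoeff (H42.fieldDatum S F) (H42.gsShortComplexF S F).f) 2 x) :=
    H99.lcF_cls (X := H42.gsShortComplexF S F) (H42.fieldDatum S F) 2 x
  rw [h1]
  refine inflK_H2π S F K hK c _ fun γ => ?_
  refine H42.unitsRep.val_injective (H := H42.qsUnits S) (hH := H42.qsStable S) ?_
  exact (hc γ).symm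

variable {p : ℕ} [Fact p.Prime] (hpS : ExtCitation.pPrime p ∈ S)

/-- The image in `H²(ℚ_S^×)` of the class of a `μ_p`-valued cocycle `y`, realised at a layer
`K` by `c`, is `inflK (H2π c)`. -/
theorem inflK_H2π_mu (K : IntermediateField ↥F Qb) [Normal ↥F ↥K]
    (hK : (K.restrictScalars ℚ).IsUnramifiedOutside S)
    (y : cyc (lcComplex (H42.fieldDatum S F) (H42.resF F (H42.Mux p))) 2)
    (c : cocycles₂ (Rep.ofAlgebraAutOnUnits ↥F ↥K))
    (hc : ∀ γ : Fin 2 → ↥F.fixingSubgroup,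
      unitsIncl F K (Additive.toMul (show Additive (↥K)ˣ from
        c.1 (galRes F K (γ 0), galRes F K (γ 1)))) =
        H42.unitsRep.val (H := H42.muUnits p) (hH := H42.muStable p)
          (lcVal (D := H42.fieldDatum S F) (M := H42.resF F (H42.Mux p)) y γ)) :
    inflK S F K hK 2 (H2π (Rep.ofAlgebraAutOnUnits ↥F ↥K) c) =
      H70.gsI2 F (H70.kuJ2 hpS F
        ((cls (lcComplex (H42.fieldDatum S F) (H42.resF F (H42.Mux p))) 2).hom y)) := by
  have h1 : H70.kuJ2 hpS F
      ((cls (lcComplex (H42.fieldDatum S F) (H42.resF F (H42.Mux p))) 2).hom y)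
      = (cls (lcComplex (H42.fieldDatum S F) (H42.resF F (H42.ESx S))) 2).hom
        (cycMap (lcMapCoeff (H42.fieldDatum S F) (H42.kummerShortComplexF hpS F).f) 2 y) :=
    H99.lcF_cls (X := H42.kummerShortComplexF hpS F) (H42.fieldDatum S F) 2 y
  rw [h1]
  exact inflK_H2π_es F K hK _ c hc

/-- Every `μ_p`-valued level-constant 2-cocycle `y` of `G_S(F)` is realised by a 2-cocycle `c`
of a layer `K` (containing a given layer), and the image of `[y]` in `H²(G_S(F), ℚ_S^×)` is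
`inflK (H2π c)`. -/
theorem exists_layer_realise_mu
    (y : cyc (lcComplex (H42.fieldDatum S F) (H42.resF F (H42.Mux p))) 2) (L₀ : QSLayer S F) :
    ∃ L : QSLayer S F, L₀.K ≤ L.K ∧ ∃ c : cocycles₂ (Rep.ofAlgebraAutOnUnits ↥F ↥L.K),
      (∀ γ : Fin 2 → ↥F.fixingSubgroup,
        unitsIncl F L.K (Additive.toMul (show Additive (↥L.K)ˣ from
          c.1 (galRes F L.K (γ 0), galRes F L.K (γ 1)))) =
          H42.unitsRep.val (H := H42.muUnits p) (hH := H42.muStable p)
          (lcVal (D := H42.fieldDatum S F) (M := H42.resF F (H42.Mux p)) y γ)) ∧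
      inflK S F L.K L.unr 2 (H2π (Rep.ofAlgebraAutOnUnits ↥F ↥L.K) c) =
        H70.gsI2 F (H70.kuJ2 hpS F
          ((cls (lcComplex (H42.fieldDatum S F) (H42.resF F (H42.Mux p))) 2).hom y)) := by
  obtain ⟨L, hle, c, hc, -⟩ := exists_layer_realise₂ S F
    (cycMap (lcMapCoeff (H42.fieldDatum S F) (H42.gsShortComplexF S F).f) 2
      (cycMap (lcMapCoeff (H42.fieldDatum S F) (H42.kummerShortComplexF hpS F).f) 2 y)) L₀
  have hc' : ∀ γ : Fin 2 → ↥F.fixingSubgroup,
      unitsIncl F L.K (Additive.toMul (show Additive (↥L.K)ˣ from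
        c.1 (galRes F L.K (γ 0), galRes F L.K (γ 1)))) =
        H42.unitsRep.val (H := H42.muUnits p) (hH := H42.muStable p)
          (lcVal (D := H42.fieldDatum S F) (M := H42.resF F (H42.Mux p)) y γ) := fun γ =>
    (congrArg (H42.unitsRep.val (H := H42.qsUnits S) (hH := H42.qsStable S)) (hc γ)).symm
  exact ⟨L, hle, c, hc', inflK_H2π_mu F hpS L.K L.unr y c hc'⟩

end Mu

end Fermat.Agent.S55.H74

end
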