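/-
Program C (S55), package C9b, leaf (HL-c) INFL-COC of helper56's `hlam` plan (helper74):
the cocycle form of `H74.inflK` on `H2π` classes, with the level and the values of the
inflated cocycle.
-/
import Mathlib
import Fermat.Agent.S55.H74.GalLayerCoc

set_option autoImplicit false

open CategoryTheory groupCohomology

noncomputable section

namespace Fermat.Agent.S55.H74

open Fermat.Agent.S55.H49 Fermat.Agent.S55

local notation "Qb" => AlgebraicClosure ℚ

variable (S : Finset Nat.Primes) (F : IntermediateField ℚ Qb)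

/-- The level-constant 2-cocycle of `G_S(F)` obtained by inflating a 2-cocycle of a layer:
`(γ₁, γ₂) ↦ c (γ₁|K, γ₂|K)`. -/
def inflCyc₂ (K : IntermediateField ↥F Qb) [Normal ↥F ↥K]
    (hK : (K.restrictScalars ℚ).IsUnramifiedOutside S)
    (c : cocycles₂ (Rep.ofAlgebraAutOnUnits ↥F ↥K)) :
    cyc (lcComplex (H42.fieldDatum S F) (H42.resF F (H42.QSx S))) 2 :=
  ⟨((inflKLc S F K hK).f 2).hom (coc₂ (Rep.ofAlgebraAutOnUnits ↥F ↥K) c.1),
    mem_cyc.mpr (H62.map_d_eq_zero (inflKLc S F K hK) 2 _ (coc₂_d _ c))⟩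

theorem lcVal_inflCyc₂ (K : IntermediateField ↥F Qb) [Normal ↥F ↥K]
    (hK : (K.restrictScalars ℚ).IsUnramifiedOutside S)
    (c : cocycles₂ (Rep.ofAlgebraAutOnUnits ↥F ↥K)) (γ : Fin 2 → ↥F.fixingSubgroup) :
    lcVal (inflCyc₂ S F K hK c) γ =
      (unitsToQS S F K hK).hom (c.1 (galRes F K (γ 0), galRes F K (γ 1))) := rfl

/-- `inflK (H2π c)` is the class of the inflated cocycle. -/
theorem inflK_H2π_eq_cls (K : IntermediateField ↥F Qb) [Normal ↥F ↥K]
    (hK : (K.restrictScalars ℚ).IsUnramifiedOutside S)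
    (c : cocycles₂ (Rep.ofAlgebraAutOnUnits ↥F ↥K)) :
    inflK S F K hK 2 (H2π (Rep.ofAlgebraAutOnUnits ↥F ↥K) c) =
      (cls (lcComplex (H42.fieldDatum S F) (H42.resF F (H42.QSx S))) 2).hom
        (inflCyc₂ S F K hK c) :=
  inflK_H2π S F K hK c _ fun γ => lcVal_inflCyc₂ S F K hK c γ

/-- The inflated cocycle has level `N` for every `N ⊇ K`. -/
theorem isLCAt_inflCyc₂ (K : IntermediateField ↥F Qb) [Normal ↥F ↥K]
    (hK : (K.restrictScalars ℚ).IsUnramifiedOutside S)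
    (c : cocycles₂ (Rep.ofAlgebraAutOnUnits ↥F ↥K)) (N : IntermediateField ℚ Qb)
    (hN : K.restrictScalars ℚ ≤ N) :
    IsLCAt ((H42.fieldDatum S F).sub N) (H42.resF F (H42.QSx S))
      (lcVal (inflCyc₂ S F K hK c)) := by
  refine (isLCAt_inflKCo S F K hK (coc₂ (Rep.ofAlgebraAutOnUnits ↥F ↥K) c.1)).mono fun γ hγ => ?_
  rw [mem_ker_galRes_iff]
  intro x hx
  exact (IntermediateField.mem_fixingSubgroup_iff N (γ : Qb ≃ₐ[ℚ] Qb)).mp hγ x (hN hx)

/-- **(HL-c) INFL-COC.**  For a layer `L` and a 2-cocycle `zb` of `Gal(L.K/F)` with values in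
`L.Kˣ` (Mathlib's low-degree cocycles), `inflK (H2π zb)` is the class of a level-constant
2-cocycle `z` of `G_S(F)`, of level `N` for every `N ⊇ L.K`, with values
`z (g, h) = zb (g|K, h|K)` (`g|K = galRes F L.K g`). -/
theorem inflCoc (L : QSLayer S F) (zb : cocycles₂ (Rep.ofAlgebraAutOnUnits ↥F ↥L.K)) :
    ∃ z : cyc (lcComplex (H42.fieldDatum S F) (H42.resF F (H42.QSx S))) 2,
      inflK S F L.K L.unr 2 ((H2π (Rep.ofAlgebraAutOnUnits ↥F ↥L.K)).hom zb) =
        (cls (lcComplex (H42.fieldDatum S F) (H42.resF F (H42.QSx S))) 2).hom z ∧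
      (∀ N : IntermediateField ℚ Qb, N.IsUnramifiedOutside S → L.K.restrictScalars ℚ ≤ N →
        IsLCAt ((H42.fieldDatum S F).sub N) (H42.resF F (H42.QSx S)) (lcVal z)) ∧
      ∀ g h : ↥F.fixingSubgroup,
        ((H42.unitsRep.val (H := H42.qsUnits S) (hH := H42.qsStable S)
            (lcVal (D := H42.fieldDatum S F) (M := H42.resF F (H42.QSx S)) z ![g, h]) : Qbˣ)
              : Qb) =
          (((Additive.toMul (Rep.toAdditive
            (zb.1 (galRes F L.K g, galRes F L.K h))) : (↥L.K)ˣ) : ↥L.K) : Qb) :=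
  ⟨inflCyc₂ S F L.K L.unr zb, inflK_H2π_eq_cls S F L.K L.unr zb,
    fun N _ hN => isLCAt_inflCyc₂ S F L.K L.unr zb N hN, fun _ _ => rfl⟩

end Fermat.Agent.S55.H74

end
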