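/-
Program C (S55), package C8, export (B4): (CLASS-CYC) WITHOUT (J-SURJ) — helper74.

`H93.classCyc_of` uses `H29.JSurjStatement` exactly once: for a cyclic layer `K/k` of degree
`p ^ a` over `k ∋ μ_p`, it needs a class of `H²(Gal(K/k), J_K)` whose local invariants are
`1 / p ^ a` at one place and `0` elsewhere.  That instance follows from landed theorems:

* two finite places `v₀`, `v₁` of `k` with full decomposition group above different rational
  primes (`H81.exists_finPlace_decompGroup_eq_top`);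
* the existence theorem (B3) `H29.CyclicExStatement p` for the family `1 / p ^ a` at `v₀`,
  `- 1 / p ^ a` at `v₁`, `0` elsewhere: a class `α ∈ H²(Gal(K/k), Kˣ)` with these invariants;
* helper88's (J-SINGLE) `H88.exists_single_jinv`: the component of `diag α` at the rational prime
  below `v₀`.

`exists_full_jinv` is that instance; `classCyc_of_ex` is helper93's assembly with it.
-/
import Fermat.Agent.S55.H93.ClassCyc
import Fermat.Agent.S55.H88.IdeleComp
import Fermat.Agent.S55.H52.FullPlace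

set_option autoImplicit false

open CategoryTheory groupCohomology Rep

noncomputable section

namespace Fermat.Agent.S55.H74

open Fermat.Agent.S55.H88 Fermat.Agent.S55.H66 Fermat.Agent.S55.H29

attribute [local instance] H88.factOfPrimes

/-- The class of `1 / n` in `ℚ/ℤ` is killed by `n`. -/
theorem nsmul_one_div_eq_zero (n : ℕ) (hn : 0 < n) :
    n • (((1 : ℚ) / (n : ℚ) : ℚ) : QZ) = 0 := by
  have hn0 : (n : ℚ) ≠ 0 := Nat.cast_ne_zero.mpr hn.ne'
  show ((n • ((1 : ℚ) / (n : ℚ)) : ℚ) : QZ) = 0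
  rw [AddCircle.coe_eq_zero_iff]
  refine ⟨1, ?_⟩
  rw [one_smul, nsmul_eq_mul]
  field_simp

/-- **(J-SURJ) for cyclic `p`-layers at a place of full local degree**, from the existence
theorem (B3) and (J-SINGLE): a class of `H²(Gal(K/k), J_K)` with local invariant `1 / p ^ a` at
one place and `0` at all the others. -/
theorem exists_full_jinv {p : ℕ} (hEx : CyclicExStatement p) (hp : p.Prime) (hp2 : p ≠ 2)
    (k K : Type) [Field k] [NumberField k] [Field K] [NumberField K] [Algebra k K] [IsGalois k K]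
    [IsCyclic (K ≃ₐ[k] K)] (hζ : ∃ ζ : k, IsPrimitiveRoot ζ p) (a : ℕ)
    (ha : Module.finrank k K = p ^ a) :
    ∃ (v₀ : FinPlace k) (y : groupCohomology (ideleRep k K) 2),
      jinv k K v₀ y = (((1 : ℚ) / ((p ^ a : ℕ) : ℚ) : ℚ) : QZ) ∧
      ∀ v : FinPlace k, v ≠ v₀ → jinv k K v y = 0 := by
  classical
  have hcard : Nat.card (K ≃ₐ[k] K) = p ^ a := by
    rw [IsGalois.card_aut_eq_finrank, ha]
  obtain ⟨v₀, -, hv₀⟩ := H81.exists_finPlace_decompGroup_eq_top k K hp hcard 0
  obtain ⟨v₁, hlt, hv₁⟩ := H81.exists_finPlace_decompGroup_eq_top k K hp hcard (v₀.1 : ℕ)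
  have hne1 : v₁.1 ≠ v₀.1 := fun h => by
    rw [h] at hlt
    exact lt_irrefl _ hlt
  have hne : v₁ ≠ v₀ := fun h => hne1 (by rw [h])
  have hd₀ : locDegAt k K v₀ = p ^ a := by
    rw [H52.locDegAt_eq_card_decompGroup, hv₀, Subgroup.card_top, hcard]
  have hd₁ : locDegAt k K v₁ = p ^ a := by
    rw [H52.locDegAt_eq_card_decompGroup, hv₁, Subgroup.card_top, hcard]
  have hpz : (p ^ a) • (((1 : ℚ) / ((p ^ a : ℕ) : ℚ) : ℚ) : QZ) = 0 :=
    nsmul_one_div_eq_zero (p ^ a) (pow_pos hp.pos a)
  generalize (((1 : ℚ) / ((p ^ a : ℕ) : ℚ) : ℚ) : QZ) = z at hpz ⊢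
  let t : FinPlace k → QZ := fun v => if v = v₀ then z else if v = v₁ then -z else 0
  have ht₀ : t v₀ = z := if_pos rfl
  have ht₁ : t v₁ = -z := by
    show (if v₁ = v₀ then z else if v₁ = v₁ then -z else 0) = -z
    rw [if_neg hne, if_pos rfl]
  have ht : ∀ v : FinPlace k, v ≠ v₀ → v ≠ v₁ → t v = 0 := by
    intro v h0 h1
    show (if v = v₀ then z else if v = v₁ then -z else 0) = 0
    rw [if_neg h0, if_neg h1]
  have hsub : Function.support t ⊆ (({v₀, v₁} : Finset (FinPlace k)) : Set (FinPlace k)) := by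
    intro v hv
    by_contra h
    rw [Finset.coe_insert, Finset.coe_singleton, Set.mem_insert_iff, Set.mem_singleton_iff,
      not_or] at h
    exact hv (ht v h.1 h.2)
  have hsupp : (Function.support t).Finite :=
    (Finset.finite_toSet _).subset hsub
  have hdeg : ∀ v : FinPlace k, locDegAt k K v • t v = 0 := by
    intro v
    by_cases h0 : v = v₀
    · subst h0
      rw [ht₀, hd₀]
      exact hpz
    · by_cases h1 : v = v₁
      · subst h1
        rw [ht₁, hd₁, smul_neg, hpz, neg_zero]
      · rw [ht v h0 h1, smul_zero]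
  have hsum : ∑ᶠ v : FinPlace k, t v = 0 := by
    rw [finsum_eq_sum_of_support_subset t hsub, Finset.sum_pair hne.symm, ht₀, ht₁,
      add_neg_cancel]
  obtain ⟨α, hα⟩ := hEx hp hp2 k K hζ ⟨a, ha⟩ t hsupp hdeg hsum
  obtain ⟨y, hy, hy'⟩ := H88.exists_single_jinv k K v₀ z α ((hα v₀).trans ht₀)
    (fun v hv hq => (hα v).trans (ht v hv (fun h => hne1 (by rw [← h]; exact hq))))
  exact ⟨v₀, y, hy, hy'⟩

/-- **(CLASS-CYC)** from CYC-H3, CYC-KER, reciprocity (B2), existence (B3) and J-FIN — no
(J-SURJ).  Same proof as `H93.classCyc_of`, with `exists_full_jinv` for the lower bound. -/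
theorem classCyc_of_ex {p : ℕ} (hCycH3 : CycH3Statement) (hKer : CycKerStatement p)
    (hRec : RecStatement NFLayer p) (hEx : CyclicExStatement p) (hFin : JFinStatement) :
    ClassCycStatement p := by
  intro hp hp2 k K _ _ _ _ _ _ _ hζ a ha
  have hX := ideleShortComplex_shortExact k K
  have hcard : Nat.card (K ≃ₐ[k] K) = p ^ a := by
    rw [IsGalois.card_aut_eq_finrank, ha]
  -- (i) `H²(J) → H²(C)` is onto
  have hsurj : Function.Surjective (mapH2 (ideleClassProj k K)) := by
    intro c
    have hs : Subsingleton (groupCohomology (Rep.ofAlgebraAutOnUnits k K) 3) :=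
      ModuleCat.subsingleton_of_isZero (hCycH3 k K)
    have hz : (δ hX 2 3 rfl).hom c = 0 := @Subsingleton.elim _ hs _ _
    obtain ⟨y, hy⟩ := (ShortComplex.moduleCat_exact_iff _).1
      (mapShortComplex₃_exact hX (i := 2) (j := 3) rfl) c hz
    exact ⟨y, hy⟩
  refine ⟨hsurj, ?_⟩
  -- the sum of the local invariants
  let s : groupCohomology (ideleRep k K) 2 →+ QZ :=
    AddMonoidHom.mk' (fun y => ∑ᶠ v : FinPlace k, jinv k K v y) (fun y y' => by
      simp only [map_add]
      exact finsum_add_distrib (hFin k K y) (hFin k K y'))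
  have hs : ∀ y, s y = ∑ᶠ v : FinPlace k, jinv k K v y := fun _ => rfl
  have hex : ∀ y : groupCohomology (ideleRep k K) 2, mapH2 (ideleClassProj k K) y = 0 →
      ∃ α : groupCohomology (Rep.ofAlgebraAutOnUnits k K) 2, mapH2 (ideleDiag k K) α = y :=
    fun y hy => exists_mapH2_eq hX y hy
  -- (ii) `ker (H²(J) → H²(C)) = ker s`
  have hker : (mapH2 (ideleClassProj k K)).ker = s.ker := by
    ext y
    rw [AddMonoidHom.mem_ker, AddMonoidHom.mem_ker]
    constructor
    · intro hy
      obtain ⟨α, hα⟩ := hex y hy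
      rw [← hα, hs]
      simp_rw [jinv_ideleDiag]
      exact hRec (layerOf k K)
        ⟨k, K, inferInstance, inferInstance, inferInstance, inferInstance, inferInstance,
          inferInstance, rfl⟩ α
        ⟨a, by
          rw [← hcard]
          exact Fermat.Agent.S55.H80.card_smul_eq_zero (Rep.ofAlgebraAutOnUnits k K) 2
            (Or.inr rfl) α⟩
    · intro hy
      obtain ⟨α, rfl⟩ := hKer hp hp2 k K hζ ⟨a, ha⟩ y hy
      exact congrArg (fun g => g.hom α) (mapShortComplex₂ (ideleShortComplex k K) 2).zero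
  rw [H93.natCard_eq_card_range _ s hsurj hker]
  refine H93.natCard_eq_of_torsion s.range (p ^ a) (pow_pos hp.pos a) ?_ ?_
  · rintro _ ⟨y, rfl⟩
    rw [← map_nsmul, ← hcard,
      Fermat.Agent.S55.H80.card_smul_eq_zero (ideleRep k K) 2 (Or.inr rfl) y, map_zero]
  · obtain ⟨v₀, y, hy, hy'⟩ := exists_full_jinv hEx hp hp2 k K hζ a ha
    refine ⟨y, ?_⟩
    rw [hs, finsum_eq_single _ v₀ (fun v hv => hy' v hv), hy]

end Fermat.Agent.S55.H74
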