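/-
Program C (S55), sub-package LOC of C9b (designer helper66), leaf (LOC-A) — helper74:
localisation of a realised class is realised (`H66.LocRealiseStatement p q`, verbatim).
-/
import Fermat.Agent.S55.H66.LocSpec

set_option autoImplicit false

open CategoryTheory groupCohomology

noncomputable section

namespace Fermat.Agent.S55.H74

open Fermat.Agent.S55.H49 Fermat.Agent.S55.H26 Fermat.Agent.S55.H66 Fermat.Agent.S55

local notation "Qb" => AlgebraicClosure ℚ

section

variable (q : ℕ) [Fact q.Prime]
variable (L : IntermediateField ℚ Qb) (K : IntermediateField L Qb) [Normal L K]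

theorem coe_gRes_apply (σ : L.fixingSubgroup) (x : K) :
    ((gRes L K σ x : K) : Qb) = (σ : GQ) (x : Qb) :=
  AlgEquiv.restrictNormal_commutes (IntermediateField.fixingSubgroupEquiv L σ) K x

theorem coe_resE_apply (E : IntermediateField ℚ_[q] (PadicAlgCl q))
    (L' : IntermediateField E (PadicAlgCl q)) [Normal E L'] (h : E.fixingSubgroup) (y : L') :
    ((resE E L' h y : L') : PadicAlgCl q) = (h : GalQ q) (y : PadicAlgCl q) :=
  AlgEquiv.restrictNormal_commutes (IntermediateField.fixingSubgroupEquiv E h) L' y

/-- The decomposition-group map sends `h|extAt` to `(g⁻¹ r(h) g)|K`. -/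
theorem locGalToGlobal_resE (g : GQ) (h : (baseAt L K q g).fixingSubgroup) :
    H88.locGalToGlobal q L (embAt L K q g) (resE (baseAt L K q g) (extAt L K q g) h) =
      gRes L K (conjLoc L K q g h) := by
  refine AlgEquiv.ext fun x => (embAt L K q g).injective ?_
  have h1 := H88.locGalToGlobal_spec q L (embAt L K q g)
    (resE (baseAt L K q g) (extAt L K q g) h) x
  have h2 := congrArg (fun y : extAt L K q g => (y : PadicAlgCl q)) h1
  have h3 : embAt L K q g (H88.locGalToGlobal q L (embAt L K q g)
      (resE (baseAt L K q g) (extAt L K q g) h) x) =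
      (h : GalQ q) (embAt L K q g x) := by
    refine Eq.trans ?_ (h2.symm.trans (coe_resE_apply q (baseAt L K q g) (extAt L K q g) h _))
    rfl
  rw [h3, embAt_apply, embAt_apply, coe_gRes_apply]
  show (h : GalQ q) (padicEmbedding q (g (x : Qb))) =
    padicEmbedding q (g (g⁻¹ (localGaloisToGlobal q (h : GalQ q) (g (x : Qb)))))
  rw [← padicEmbedding_localGaloisToGlobal]
  congr 1
  exact (g.apply_symm_apply _).symm

end

/-- The value of the image of a 2-cocycle under `mapCocycles₂`. -/
theorem mapCocycles₂_val_apply {k G H : Type} [CommRing k] [Group G] [Group H]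
    {A : Rep.{0, 0, 0} k H} {B : Rep.{0, 0, 0} k G} (f : G →* H) (φ : Rep.res f A ⟶ B)
    (c : cocycles₂ A) (a b : G) :
    ((mapCocycles₂ f φ).hom c).1 (a, b) = φ.hom (c.1 (f a, f b)) :=
  congrFun (coe_mapCocycles₂ f φ c) (a, b)

/-- **Leaf (LOC-A)**: localisation of a realised class is realised. -/
theorem locRealiseStatement (p : ℕ) [Fact p.Prime] (q : ℕ) [Fact q.Prime] :
    LocRealiseStatement p q := by
  intro L K _ _ ζ f c hc g
  let c' : cocycles₂ (Rep.ofAlgebraAutOnUnits (baseAt L K q g) (extAt L K q g)) :=
    (mapCocycles₂ (H88.locGalToGlobal q L (embAt L K q g))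
      (H88.globalToLocUnits q L (embAt L K q g))).hom c
  have e := H2π_comp_map (H88.locGalToGlobal q L (embAt L K q g))
      (H88.globalToLocUnits q L (embAt L K q g))
  have e' := LinearMap.congr_fun (ModuleCat.hom_ext_iff.mp e) c
  have e1 : groupCohomology.H2π _ c' =
          H88.locH2At q L (embAt L K q g) (groupCohomology.H2π _ c) := e'.symm
  have e2 : Realises p q (baseAt L K q g) (extAt L K q g)
          (Units.map (H88.locExtEmb q L (embAt L K q g) : K →* extAt L K q g) ζ)
          (conjFun p L K q g f) c' := by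
    intro h₁ h₂
    have h3 : c'.1 (resE (baseAt L K q g) (extAt L K q g) h₁, resE (baseAt L K q g) (extAt L K q g) h₂) =
      (H88.globalToLocUnits q L (embAt L K q g)).hom (c.1 (H88.locGalToGlobal q L (embAt L K q g) (resE (baseAt L K q g) (extAt L K q g) h₁), H88.locGalToGlobal q L (embAt L K q g) (resE (baseAt L K q g) (extAt L K q g) h₂))) :=
      mapCocycles₂_val_apply _ _ c _ _
    have k1 := locGalToGlobal_resE q L K g h₁
    have k2 := locGalToGlobal_resE q L K g h₂
    have k : c.1 (H88.locGalToGlobal q L (embAt L K q g) (resE (baseAt L K q g) (extAt L K q g) h₁), H88.locGalToGlobal q L (embAt L K q g) (resE (baseAt L K q g) (extAt L K q g) h₂)) =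
        gZetaPow p ζ (f (conjLoc L K q g h₁, conjLoc L K q g h₂)) :=
      (congrArg₂ (fun a b => c.1 (a, b)) k1 k2).trans (hc (conjLoc L K q g h₁) (conjLoc L K q g h₂))
    have final : (H88.globalToLocUnits q L (embAt L K q g)).hom
        (gZetaPow p ζ (f (conjLoc L K q g h₁, conjLoc L K q g h₂))) =
        zetaPow p (Units.map (H88.locExtEmb q L (embAt L K q g) : K →* extAt L K q g) ζ)
          (conjFun p L K q g f (h₁, h₂)) := by
      show Additive.ofMul (Units.map (H88.locExtEmb q L (embAt L K q g) : K →* extAt L K q g)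
        (ζ ^ (f (conjLoc L K q g h₁, conjLoc L K q g h₂)).val)) = _
      rw [map_pow]
      rfl
    exact h3.trans ((congrArg (H88.globalToLocUnits q L (embAt L K q g)).hom k).trans final)
  exact ⟨c', e1, e2⟩
end Fermat.Agent.S55.H74

end
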