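/-
Program C (S55), C0-type leaf (helper74): the FINITE-LEVEL (COLIMIT) DESCRIPTION of
level-constant cohomology `H49.Hlc D M n`.

* `inflH D M U hU n : Hⁿ(G ⧸ U, M^U) →ₗ Hlc D M n` (inflation from a normal "open" subgroup);
* `inflQ M U' U h n : Hⁿ(G ⧸ U, M^U) →ₗ Hⁿ(G ⧸ U', M^U')` for `U' ≤ U` (transition maps);
* **(FL1)** every class of `Hlc D M n` is inflated from every sufficiently small level;
* **(FL2)** a class of `Hⁿ(G ⧸ U, M^U)` whose inflation to `Hlc D M n` vanishes already
  vanishes in `Hⁿ(G ⧸ U', M^U')` for every sufficiently small level `U'`;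
* **(FL3)** descent: a compatible family of additive maps on the `Hⁿ(G ⧸ U, M^U)` glues to a
  unique additive map on `Hlc D M n`.
-/
import Mathlib
import Fermat.Agent.S55.H74.FiniteLevel
import Fermat.Agent.S55.H62.HomologyElt
import Fermat.Agent.S55.H74.LcTors

set_option autoImplicit false

open CategoryTheory groupCohomology

namespace Fermat.Agent.S55.H74

open Fermat.Agent.S55.H49

variable {G : Type} [Group G] {k : Type} [CommRing k]

/-- The differential of the inhomogeneous cochains, on elements. -/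
theorem inhomogeneousCochains_d_apply (A : Rep.{0} k G) (n : ℕ) (f : (Fin n → G) → A) :
    ((inhomogeneousCochains A).d n (n + 1)).hom f = (inhomogeneousCochains.d A n).hom f := by
  simp only [inhomogeneousCochains, CochainComplex.of_d]

/-- Inflation `Hⁿ(G ⧸ U, M^U) → Hlc D M n`. -/
noncomputable def inflH (D : LevelDatum G) (M : Rep.{0} k G) (U : Subgroup G) [U.Normal]
    (hU : IsOpenN D U) (n : ℕ) :
    groupCohomology (M.quotientToInvariants U) n →ₗ[k] Hlc D M n :=
  (HomologicalComplex.homologyMap (inflLc D M U hU) n).hom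

/-- The inclusion `M^U ⊆ M^U'` for `U' ≤ U`, as a morphism of representations of `G ⧸ U'`. -/
noncomputable def invIncl (M : Rep.{0} k G) (U' U : Subgroup G) [U'.Normal] [U.Normal]
    (h : U' ≤ U) :
    Rep.res (QuotientGroup.map U' U (MonoidHom.id G) h) (M.quotientToInvariants U) ⟶
      M.quotientToInvariants U' :=
  Rep.ofHom ⟨{ toFun := fun x => ⟨x.1, fun s => x.2 ⟨s.1, h s.2⟩⟩
               map_add' := fun _ _ => rfl
               map_smul' := fun _ _ => rfl }, fun g => by
    induction g using QuotientGroup.induction_on with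
    | H g => rfl⟩

/-- The transition chain map `C•(G ⧸ U, M^U) → C•(G ⧸ U', M^U')` for `U' ≤ U`. -/
noncomputable abbrev inflQCo (M : Rep.{0} k G) (U' U : Subgroup G) [U'.Normal] [U.Normal]
    (h : U' ≤ U) :
    inhomogeneousCochains (M.quotientToInvariants U) ⟶
      inhomogeneousCochains (M.quotientToInvariants U') :=
  cochainsMap (QuotientGroup.map U' U (MonoidHom.id G) h) (invIncl M U' U h)

/-- The transition map `Hⁿ(G ⧸ U, M^U) → Hⁿ(G ⧸ U', M^U')` for `U' ≤ U` (finite-level
inflation). -/
noncomputable def inflQ (M : Rep.{0} k G) (U' U : Subgroup G) [U'.Normal] [U.Normal]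
    (h : U' ≤ U) (n : ℕ) :
    groupCohomology (M.quotientToInvariants U) n →ₗ[k]
      groupCohomology (M.quotientToInvariants U') n :=
  (groupCohomology.map (QuotientGroup.map U' U (MonoidHom.id G) h) (invIncl M U' U h) n).hom

theorem inflQ_eq_map (M : Rep.{0} k G) (U' U : Subgroup G) [U'.Normal] [U.Normal]
    (h : U' ≤ U) (n : ℕ) :
    inflQ M U' U h n =
      (groupCohomology.map (QuotientGroup.map U' U (MonoidHom.id G) h) (invIncl M U' U h) n).hom :=
  rfl

/-- Inflation to `G` factors through the transition maps (cochain level). -/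
theorem inflQCo_comp_inflLc (D : LevelDatum G) (M : Rep.{0} k G) (U' U : Subgroup G)
    [U'.Normal] [U.Normal] (h : U' ≤ U) (hU' : IsOpenN D U') (hU : IsOpenN D U) :
    inflQCo M U' U h ≫ inflLc D M U' hU' = inflLc D M U hU := by
  ext n : 1
  refine ModuleCat.hom_ext (LinearMap.ext fun f => Subtype.ext ?_)
  rfl

theorem inflQCo_apply_coe (M : Rep.{0} k G) (U' U : Subgroup G) [U'.Normal] [U.Normal]
    (h : U' ≤ U) {n : ℕ} (f : (Fin n → G ⧸ U) → M.quotientToInvariants U) :
    ((inflCo M U').f n).hom (((inflQCo M U' U h).f n).hom f) = ((inflCo M U).f n).hom f :=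
  rfl

/-- Inflation to `G` factors through the transition maps. -/
theorem inflH_inflQ (D : LevelDatum G) (M : Rep.{0} k G) (U' U : Subgroup G)
    [U'.Normal] [U.Normal] (h : U' ≤ U) (hU' : IsOpenN D U') (hU : IsOpenN D U) (n : ℕ)
    (y : groupCohomology (M.quotientToInvariants U) n) :
    inflH D M U' hU' n (inflQ M U' U h n y) = inflH D M U hU n y := by
  have e := congrArg (fun φ => HomologicalComplex.homologyMap φ n)
    (inflQCo_comp_inflLc D M U' U h hU' hU)
  simp only [HomologicalComplex.homologyMap_comp] at e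
  have e' := LinearMap.congr_fun (ModuleCat.hom_ext_iff.mp e) y
  exact e'

/-- `⊤` is "open". -/
theorem isOpenN_top (D : LevelDatum G) : IsOpenN D ⊤ :=
  ⟨⊥, D.bot, by
    rw [show (⊥ : IntermediateField ℚ (AlgebraicClosure ℚ)).fixingSubgroup = ⊤ from
      IntermediateField.fixingSubgroup_bot]
    infer_instance, le_top⟩

/-- A chain map sends cocycles to cocycles (element form, for inflation). -/
theorem inflLc_d (D : LevelDatum G) (M : Rep.{0} k G) (U : Subgroup G) [U.Normal]
    (hU : IsOpenN D U) (n : ℕ) (c : (inhomogeneousCochains (M.quotientToInvariants U)).X n) :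
    ((inflLc D M U hU).f (n + 1)).hom
        (((inhomogeneousCochains (M.quotientToInvariants U)).d n (n + 1)).hom c) =
      ((lcComplex D M).d n (n + 1)).hom (((inflLc D M U hU).f n).hom c) := by
  have e := LinearMap.congr_fun (ModuleCat.hom_ext_iff.mp ((inflLc D M U hU).comm n (n + 1))) c
  exact e.symm

/-- **(FL1)** Every class of `Hlc D M n` is inflated from every sufficiently small normal
"open" subgroup. -/
theorem exists_level_forall_inflH_eq (D : LevelDatum G) (M : Rep.{0} k G) (n : ℕ)
    (x : Hlc D M n) :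
    ∃ F : IntermediateField ℚ (AlgebraicClosure ℚ), D.Lev F ∧ (F.fixingSubgroup).Normal ∧
      ∀ (U : Subgroup G) [U.Normal] (hU : IsOpenN D U), U ≤ D.sub F →
        ∃ y : groupCohomology (M.quotientToInvariants U) n, inflH D M U hU n y = x := by
  obtain ⟨z, hz, hzx⟩ := H62.Hmk_surjective (lcComplex D M) n x
  obtain ⟨F, hF, hN, hLC⟩ := (z : lcCochains D M n).2
  refine ⟨F, hF, hN, fun U _ hU hle => ?_⟩
  have hLCU : IsLCAt U M (z : lcCochains D M n).1 := hLC.mono hle
  set c : (inhomogeneousCochains (M.quotientToInvariants U)).X n :=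
    descCo M U (z : lcCochains D M n).1 hLCU with hc
  have hinf : ((inflLc D M U hU).f n).hom c = z :=
    Subtype.ext (inflCo_descCo M U (z : lcCochains D M n).1 hLCU)
  have hcoc : ((inhomogeneousCochains (M.quotientToInvariants U)).d n (n + 1)).hom c = 0 := by
    apply inflLc_injective D M U hU (n + 1)
    rw [inflLc_d, hinf, hz, map_zero]
  refine ⟨H62.Hmk (inhomogeneousCochains (M.quotientToInvariants U)) n c hcoc, ?_⟩
  rw [← hzx]
  exact (H62.homologyMap_Hmk (inflLc D M U hU) n c hcoc).trans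
    (H62.Hmk_congr (lcComplex D M) n hinf _)

/-- **(FL1)**, at a level: every class of `Hlc D M n` is inflated from `G ⧸ D.sub F` for a
normal level `F` containing a given normal level `F₀`. -/
theorem exists_level_inflH_eq (D : LevelDatum G) (M : Rep.{0} k G) (n : ℕ) (x : Hlc D M n)
    (F₀ : IntermediateField ℚ (AlgebraicClosure ℚ)) (hF₀ : D.Lev F₀)
    (hN₀ : (F₀.fixingSubgroup).Normal) :
    ∃ F : IntermediateField ℚ (AlgebraicClosure ℚ), D.Lev F ∧ F₀ ≤ F ∧
      ∃ hN : (F.fixingSubgroup).Normal, ∃ hF : D.Lev F,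
        have := D.sub_normal hN
        ∃ y : groupCohomology (M.quotientToInvariants (D.sub F)) n,
          inflH D M (D.sub F) (isOpenN_sub D hF hN) n y = x := by
  obtain ⟨F₁, hF₁, hN₁, hall⟩ := exists_level_forall_inflH_eq D M n x
  have hN : ((F₀ ⊔ F₁).fixingSubgroup).Normal := normal_fixingSubgroup_sup hN₀ hN₁
  have hF : D.Lev (F₀ ⊔ F₁) := D.sup hF₀ hF₁
  refine ⟨F₀ ⊔ F₁, hF, le_sup_left, hN, hF, ?_⟩
  have := D.sub_normal hN
  exact hall (D.sub (F₀ ⊔ F₁)) (isOpenN_sub D hF hN) (D.sub_antitone le_sup_right)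

/-- **(FL2)** A class of `Hⁿ(G ⧸ U, M^U)` whose inflation to `Hlc D M n` vanishes already
vanishes at every sufficiently small level. -/
theorem exists_level_forall_inflQ_eq_zero (D : LevelDatum G) (M : Rep.{0} k G)
    (U : Subgroup G) [U.Normal] (hU : IsOpenN D U) (n : ℕ)
    (y : groupCohomology (M.quotientToInvariants U) n) (hy : inflH D M U hU n y = 0) :
    ∃ F : IntermediateField ℚ (AlgebraicClosure ℚ), D.Lev F ∧ (F.fixingSubgroup).Normal ∧
      ∀ (U' : Subgroup G) [U'.Normal] (h : U' ≤ U), IsOpenN D U' → U' ≤ D.sub F →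
        inflQ M U' U h n y = 0 := by
  obtain ⟨c, hc, rfl⟩ :=
    H62.Hmk_surjective (inhomogeneousCochains (M.quotientToInvariants U)) n y
  have h1 : H62.Hmk (lcComplex D M) n (((inflLc D M U hU).f n).hom c)
      (H62.map_d_eq_zero (inflLc D M U hU) n c hc) = 0 :=
    (H62.homologyMap_Hmk (inflLc D M U hU) n c hc).symm.trans hy
  cases n with
  | zero =>
    rw [H62.Hmk_zero_eq_zero_iff] at h1
    have hc0 : c = 0 := by
      apply inflLc_injective D M U hU 0
      rw [h1, map_zero]
    obtain ⟨F, hF, hN, -⟩ := hU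
    refine ⟨F, hF, hN, fun U' _ h _ _ => ?_⟩
    subst hc0
    have h0 : H62.Hmk (inhomogeneousCochains (M.quotientToInvariants U)) 0 0 hc = 0 :=
      H62.Hmk_zero _ 0 hc
    exact (congrArg (inflQ M U' U h 0) h0).trans (map_zero (inflQ M U' U h 0))
  | succ n =>
    rw [H62.Hmk_succ_eq_zero_iff] at h1
    obtain ⟨w, hw⟩ := h1
    obtain ⟨F, hF, hN, hLC⟩ := (w : lcCochains D M n).2
    refine ⟨F, hF, hN, fun U' _ h hU' hle => ?_⟩
    have hLCU : IsLCAt U' M (w : lcCochains D M n).1 := hLC.mono hle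
    set wbar : (inhomogeneousCochains (M.quotientToInvariants U')).X n :=
      descCo M U' (w : lcCochains D M n).1 hLCU with hwbar
    have hinf : ((inflLc D M U' hU').f n).hom wbar = w :=
      Subtype.ext (inflCo_descCo M U' (w : lcCochains D M n).1 hLCU)
    have hd : ((inhomogeneousCochains (M.quotientToInvariants U')).d n (n + 1)).hom wbar =
        ((inflQCo M U' U h).f (n + 1)).hom c := by
      apply inflLc_injective D M U' hU' (n + 1)
      rw [inflLc_d, hinf, hw]
      have e := congrArg (fun φ => (HomologicalComplex.Hom.f φ (n + 1)))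
        (inflQCo_comp_inflLc D M U' U h hU' hU)
      have e' := LinearMap.congr_fun (ModuleCat.hom_ext_iff.mp e) c
      exact e'.symm
    have h2 := H62.homologyMap_Hmk (inflQCo M U' U h) (n + 1) c hc
    have h3 : inflQ M U' U h (n + 1)
        (H62.Hmk (inhomogeneousCochains (M.quotientToInvariants U)) (n + 1) c hc) =
        H62.Hmk (inhomogeneousCochains (M.quotientToInvariants U')) (n + 1)
          (((inflQCo M U' U h).f (n + 1)).hom c)
          (H62.map_d_eq_zero (inflQCo M U' U h) (n + 1) c hc) := h2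
    rw [h3]
    exact (H62.Hmk_succ_eq_zero_iff (inhomogeneousCochains (M.quotientToInvariants U')) n _ _).2
      ⟨wbar, hd⟩

/-- Well-definedness for (FL3): two finite-level representatives of the same class have the
same value under a compatible family. -/
theorem desc_wd (D : LevelDatum G) (M : Rep.{0} k G) (n : ℕ) {T : Type*} [AddCommGroup T]
    (φ : ∀ (U : Subgroup G) [U.Normal], IsOpenN D U →
      (groupCohomology (M.quotientToInvariants U) n →+ T))
    (hφ : ∀ (U' U : Subgroup G) [U'.Normal] [U.Normal] (hU' : IsOpenN D U') (hU : IsOpenN D U)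
      (h : U' ≤ U) (y : groupCohomology (M.quotientToInvariants U) n),
      φ U' hU' (inflQ M U' U h n y) = φ U hU y)
    (U U' : Subgroup G) [U.Normal] [U'.Normal] (hU : IsOpenN D U) (hU' : IsOpenN D U')
    (y : groupCohomology (M.quotientToInvariants U) n)
    (y' : groupCohomology (M.quotientToInvariants U') n)
    (h : inflH D M U hU n y = inflH D M U' hU' n y') : φ U hU y = φ U' hU' y' := by
  have hV : IsOpenN D (U ⊓ U') := hU.inf hU'
  set y1 := inflQ M (U ⊓ U') U inf_le_left n y with hy1
  set y2 := inflQ M (U ⊓ U') U' inf_le_right n y' with hy2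
  have h0 : inflH D M (U ⊓ U') hV n (y1 - y2) = 0 := by
    rw [map_sub, hy1, hy2, inflH_inflQ D M (U ⊓ U') U inf_le_left hV hU,
      inflH_inflQ D M (U ⊓ U') U' inf_le_right hV hU', h, sub_self]
  obtain ⟨F, hF, hN, hall⟩ := exists_level_forall_inflQ_eq_zero D M (U ⊓ U') hV n _ h0
  have := D.sub_normal hN
  have hW : IsOpenN D ((U ⊓ U') ⊓ D.sub F) := hV.inf (isOpenN_sub D hF hN)
  have h3 := hall ((U ⊓ U') ⊓ D.sub F) inf_le_left hW inf_le_right
  rw [map_sub, sub_eq_zero] at h3
  have h4 := congrArg (φ ((U ⊓ U') ⊓ D.sub F) hW) h3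
  rw [hφ _ _ hW hV inf_le_left y1, hφ _ _ hW hV inf_le_left y2, hy1, hy2,
    hφ _ _ hV hU inf_le_left y, hφ _ _ hV hU' inf_le_right y'] at h4
  exact h4

/-- **(FL3)** Descent: a family of additive maps on the finite-level cohomology groups
`Hⁿ(G ⧸ U, M^U)`, compatible with the transition maps, glues to a unique additive map on
`Hlc D M n`. -/
theorem exists_unique_desc (D : LevelDatum G) (M : Rep.{0} k G) (n : ℕ) {T : Type*}
    [AddCommGroup T]
    (φ : ∀ (U : Subgroup G) [U.Normal], IsOpenN D U →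
      (groupCohomology (M.quotientToInvariants U) n →+ T))
    (hφ : ∀ (U' U : Subgroup G) [U'.Normal] [U.Normal] (hU' : IsOpenN D U') (hU : IsOpenN D U)
      (h : U' ≤ U) (y : groupCohomology (M.quotientToInvariants U) n),
      φ U' hU' (inflQ M U' U h n y) = φ U hU y) :
    ∃! Φ : Hlc D M n →+ T, ∀ (U : Subgroup G) [U.Normal] (hU : IsOpenN D U)
      (y : groupCohomology (M.quotientToInvariants U) n),
      Φ (inflH D M U hU n y) = φ U hU y := by
  have ex : ∀ x : Hlc D M n, ∃ t : T, ∀ (U : Subgroup G) [U.Normal] (hU : IsOpenN D U)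
      (y : groupCohomology (M.quotientToInvariants U) n),
      inflH D M U hU n y = x → φ U hU y = t := by
    intro x
    obtain ⟨F, hF, hN, hall⟩ := exists_level_forall_inflH_eq D M n x
    have := D.sub_normal hN
    obtain ⟨y0, hy0⟩ := hall (D.sub F) (isOpenN_sub D hF hN) le_rfl
    exact ⟨φ (D.sub F) (isOpenN_sub D hF hN) y0, fun U _ hU y hy =>
      desc_wd D M n φ hφ U (D.sub F) hU (isOpenN_sub D hF hN) y y0 (hy.trans hy0.symm)⟩
  choose Φ hΦ using ex
  have hadd : ∀ x x' : Hlc D M n, Φ (x + x') = Φ x + Φ x' := by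
    intro x x'
    obtain ⟨F, hF, hN, hall⟩ := exists_level_forall_inflH_eq D M n x
    obtain ⟨F', hF', hN', hall'⟩ := exists_level_forall_inflH_eq D M n x'
    have := D.sub_normal hN
    have := D.sub_normal hN'
    have hV : IsOpenN D (D.sub F ⊓ D.sub F') := (isOpenN_sub D hF hN).inf (isOpenN_sub D hF' hN')
    obtain ⟨y, hy⟩ := hall (D.sub F ⊓ D.sub F') hV inf_le_left
    obtain ⟨y', hy'⟩ := hall' (D.sub F ⊓ D.sub F') hV inf_le_right
    rw [← hΦ x _ hV y hy, ← hΦ x' _ hV y' hy', ← map_add]
    refine (hΦ (x + x') _ hV (y + y') ?_).symm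
    rw [map_add, hy, hy']
  refine ⟨AddMonoidHom.mk' Φ hadd, fun U _ hU y => (hΦ _ U hU y rfl).symm, ?_⟩
  intro Ψ hΨ
  ext x
  obtain ⟨F, hF, hN, hall⟩ := exists_level_forall_inflH_eq D M n x
  have := D.sub_normal hN
  obtain ⟨y, hy⟩ := hall (D.sub F) (isOpenN_sub D hF hN) le_rfl
  rw [← hy, hΨ]
  exact hΦ _ _ _ y rfl

end Fermat.Agent.S55.H74
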