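/-
Program C (S55), package C9b (helper74): the Galois finite-level presentation in the vocabulary
of the LOC bridge (`H66.gRes`, `H66.GRealises`).

* `gRes_eq_galRes` : `H66.gRes F K = H74.galRes F K`;
* `inflK_H2π_of_gRealises` : if the unit cocycle `c` of the layer `K` realises `f` w.r.t. `ζ`
  and the `μ_p`-valued level-constant cocycle `y` has values `ζ ^ f`, then the image of `[y]` in
  `H²(G_S(F), ℚ_S^×)` is `inflK (H2π c)`;
* `exists_layer_gRealises` : such a realisation exists at a layer containing a given layer.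
-/
import Mathlib
import Fermat.Agent.S55.H74.GalLayerCoc
import Fermat.Agent.S55.H66.LocSpec

set_option autoImplicit false

open CategoryTheory groupCohomology

noncomputable section

namespace Fermat.Agent.S55.H74

open Fermat.Agent.S55.H49 Fermat.Agent.S55

local notation "Qb" => AlgebraicClosure ℚ

variable {S : Finset Nat.Primes} (F : IntermediateField ℚ Qb)

theorem gRes_eq_galRes (K : IntermediateField ↥F Qb) [Normal ↥F ↥K] :
    H66.gRes F K = galRes F K := rfl

variable {p : ℕ} [Fact p.Prime] (hpS : ExtCitation.pPrime p ∈ S)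

/-- If the unit cocycle `c` of the layer `K` realises `f` w.r.t. `ζ` and the `μ_p`-valued
level-constant cocycle `y` has values `ζ ^ f`, then the image of `[y]` in `H²(G_S(F), ℚ_S^×)` is
`inflK (H2π c)`. -/
theorem inflK_H2π_of_gRealises (K : IntermediateField ↥F Qb) [Normal ↥F ↥K]
    (hK : (K.restrictScalars ℚ).IsUnramifiedOutside S)
    (y : cyc (lcComplex (H42.fieldDatum S F) (H42.resF F (H42.Mux p))) 2) (ζ : (↥K)ˣ)
    (f : F.fixingSubgroup × F.fixingSubgroup → ZMod p)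
    (c : cocycles₂ (Rep.ofAlgebraAutOnUnits ↥F ↥K)) (hc : H66.GRealises p F K ζ f c)
    (hy : ∀ γ : Fin 2 → ↥F.fixingSubgroup,
      H42.unitsRep.val (H := H42.muUnits p) (hH := H42.muStable p)
          (lcVal (D := H42.fieldDatum S F) (M := H42.resF F (H42.Mux p)) y γ) =
        unitsIncl F K (ζ ^ (f (γ 0, γ 1)).val)) :
    inflK S F K hK 2 (H2π (Rep.ofAlgebraAutOnUnits ↥F ↥K) c) =
      H70.gsI2 F (H70.kuJ2 hpS F
        ((cls (lcComplex (H42.fieldDatum S F) (H42.resF F (H42.Mux p))) 2).hom y)) := by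
  refine inflK_H2π_mu F hpS K hK y c fun γ => ?_
  refine Eq.trans ?_ (hy γ).symm
  exact congrArg (fun u => unitsIncl F K (Additive.toMul (show Additive (↥K)ˣ from u)))
    (hc (γ 0) (γ 1))

/-- A `μ_p`-valued level-constant 2-cocycle `y` of `G_S(F)` with values `ζQ ^ f` is realised
(in the sense of `H66.GRealises`) by a unit cocycle of a layer containing a given layer, and the
image of `[y]` in `H²(G_S(F), ℚ_S^×)` is `inflK (H2π c)`. -/
theorem exists_layer_gRealises
    (y : cyc (lcComplex (H42.fieldDatum S F) (H42.resF F (H42.Mux p))) 2) (ζQ : Qbˣ)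
    (hζ : ζQ ^ p = 1) (f : F.fixingSubgroup × F.fixingSubgroup → ZMod p)
    (hy : ∀ γ : Fin 2 → ↥F.fixingSubgroup,
      H42.unitsRep.val (H := H42.muUnits p) (hH := H42.muStable p)
          (lcVal (D := H42.fieldDatum S F) (M := H42.resF F (H42.Mux p)) y γ) =
        ζQ ^ (f (γ 0, γ 1)).val) (L₀ : QSLayer S F) :
    ∃ L : QSLayer S F, L₀.K ≤ L.K ∧ ∃ ζ : (↥L.K)ˣ, unitsIncl F L.K ζ = ζQ ∧
      ∃ c : cocycles₂ (Rep.ofAlgebraAutOnUnits ↥F ↥L.K), H66.GRealises p F L.K ζ f c ∧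
        inflK S F L.K L.unr 2 (H2π (Rep.ofAlgebraAutOnUnits ↥F ↥L.K) c) =
          H70.gsI2 F (H70.kuJ2 hpS F
            ((cls (lcComplex (H42.fieldDatum S F) (H42.resF F (H42.Mux p))) 2).hom y)) := by
  -- a layer containing `L₀` and `ζQ`
  obtain ⟨N, hN, hζN⟩ : ζQ ∈ H42.qsUnits S :=
    H42.sUnits_le_qsUnits S (H42.muUnits_le_sUnits hpS hζ)
  obtain ⟨K₁, hK₁n, hK₁u, hle₁, hNK₁⟩ := exists_layer_ge S F L₀.K L₀.unr N hN
  obtain ⟨L, hle, c, hc, hinf⟩ := exists_layer_realise_mu F hpS y ⟨K₁, hK₁n, hK₁u⟩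
  have hζL : (ζQ : Qb) ∈ L.K := hle (hNK₁ hζN)
  let ζ : (↥L.K)ˣ := Units.mk0 ⟨(ζQ : Qb), hζL⟩ fun h => ζQ.ne_zero (congrArg Subtype.val h)
  have hζ' : unitsIncl F L.K ζ = ζQ := Units.ext rfl
  refine ⟨L, hle₁.trans hle, ζ, hζ', c, fun σ₁ σ₂ => ?_, hinf⟩
  have h1 := hc ![σ₁, σ₂]
  have h2 := hy ![σ₁, σ₂]
  have h3 : unitsIncl F L.K (Additive.toMul (show Additive (↥L.K)ˣ from
      c.1 (galRes F L.K σ₁, galRes F L.K σ₂))) = unitsIncl F L.K (ζ ^ (f (σ₁, σ₂)).val) := by
    rw [map_pow, hζ']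
    exact h1.trans h2
  exact congrArg Additive.ofMul (unitsIncl_injective F L.K h3)

end Fermat.Agent.S55.H74

end
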