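/-
Program C (S55), package C9b (helper70), layer 1b — proof of `H70.KummerChaseStatement`
(helper74).  Pure abelian-group diagram chase, Mathlib only.

Kummer sequence `0 → μ_p → E_S → E_S → 0`; from (ES1)–(ES4) for `E² = H²(G_S(F), E_S)`,
`E³ = H³(G_S(F), E_S)` we get (K1) `M³ = 0`, (K2) reciprocity, (K3) existence,
(K4) Hasse principle modulo `δ(H¹(E_S))` for `M² = H²(G_S(F), μ_p)`.
-/
import Mathlib
import Fermat.Agent.S55.H70.GSAbstract

set_option autoImplicit false

namespace Fermat.Agent.S55.H74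

open Fermat.Agent.S55.H70

/-- A `p`-torsion element is `p`-primary. -/
theorem isPPrimary_of_smul_eq_zero (p : ℕ) {A : Type*} [AddCommGroup A] {x : A}
    (h : p • x = 0) : IsPPrimary p x := ⟨1, by simpa using h⟩

/-- Images of `p`-primary elements are `p`-primary. -/
theorem IsPPrimary_map {p : ℕ} {A B : Type*} [AddCommGroup A] [AddCommGroup B] (f : A →+ B)
    {x : A} (h : IsPPrimary p x) : IsPPrimary p (f x) := by
  obtain ⟨k, hk⟩ := h
  exact ⟨k, by rw [← map_nsmul, hk, map_zero]⟩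

/-- Multiples of `p`-primary elements are `p`-primary. -/
theorem IsPPrimary_nsmul {p : ℕ} {A : Type*} [AddCommGroup A] (n : ℕ)
    {x : A} (h : IsPPrimary p x) : IsPPrimary p (n • x) := by
  obtain ⟨k, hk⟩ := h
  exact ⟨k, by rw [smul_comm, hk, smul_zero]⟩

/-- Differences of `p`-primary elements are `p`-primary. -/
theorem IsPPrimary_sub {p : ℕ} {A : Type*} [AddCommGroup A]
    {x y : A} (hx : IsPPrimary p x) (hy : IsPPrimary p y) : IsPPrimary p (x - y) := by
  obtain ⟨k, hk⟩ := hx
  obtain ⟨l, hl⟩ := hy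
  refine ⟨k + l, ?_⟩
  have h1 : p ^ (k + l) • x = 0 := by rw [pow_add, mul_comm, mul_smul, hk, smul_zero]
  have h2 : p ^ (k + l) • y = 0 := by rw [pow_add, mul_smul, hl, smul_zero]
  rw [smul_sub, h1, h2, sub_zero]

/-- If `m • x = 0` and `p • x = 0` with `p ∤ m`, `p` prime, then `x = 0`. -/
theorem eq_zero_of_smul_of_smul {p : ℕ} (hp : p.Prime) {A : Type*} [AddCommGroup A] {x : A}
    {m : ℕ} (hm : ¬ p ∣ m) (h1 : m • x = 0) (h2 : p • x = 0) : x = 0 := by
  have hcop : Nat.Coprime p m := (Nat.Prime.coprime_iff_not_dvd hp).2 hm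
  have hic : IsCoprime (p : ℤ) (m : ℤ) := Nat.isCoprime_iff_coprime.2 hcop
  obtain ⟨a, b, hab⟩ := hic
  have h1' : (m : ℤ) • x = 0 := by rw [natCast_zsmul]; exact h1
  have h2' : (p : ℤ) • x = 0 := by rw [natCast_zsmul]; exact h2
  calc x = (1 : ℤ) • x := (one_zsmul x).symm
    _ = (a * p + b * m) • x := by rw [hab]
    _ = a • ((p : ℤ) • x) + b • ((m : ℤ) • x) := by rw [add_smul, mul_smul, mul_smul]
    _ = 0 := by rw [h1', h2', smul_zero, smul_zero, add_zero]

/-- LAYER 1b of C9b: the Kummer chase. -/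
theorem kummerChase : KummerChaseStatement := by
  intro p hp T _ hdiv E1 M2 E2 M3 E3 _ _ _ _ _ δ1 j2 δ2 j3 hM2 hE2 hE2' hM3 hpM2 hpM3 htE2
    VS _ _ I ES1 ES2 ES3 ES4
  -- key: every `p`-primary element of `E2` is divisible by `p`
  have key : ∀ e : E2, IsPPrimary p e → ∃ x : E2, p • x = e := by
    intro e he
    have ht : ∀ v, IsPPrimary p (I v e) := fun v => IsPPrimary_map (I v) he
    choose t' ht'p ht' using fun v => hdiv (I v e) (ht v)
    obtain ⟨v0⟩ := ‹Nonempty VS›
    classical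
    set s : T := ∑ v, t' v with hs
    have hps : p • s = 0 := by
      rw [hs, Finset.smul_sum]
      simp_rw [ht']
      exact ES3 e
    set t'' : VS → T := fun v => if v = v0 then t' v - s else t' v with ht''
    have h1 : ∀ v, IsPPrimary p (t'' v) := by
      intro v
      simp only [ht'']
      split_ifs
      · exact IsPPrimary_sub (ht'p v) (isPPrimary_of_smul_eq_zero p hps)
      · exact ht'p v
    have h2 : ∑ v, t'' v = 0 := by
      have : ∀ v, t'' v = t' v - (if v = v0 then s else 0) := by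
        intro v
        simp only [ht'']
        split_ifs <;> simp
      simp_rw [this]
      rw [Finset.sum_sub_distrib, Finset.sum_ite_eq' Finset.univ v0]
      simp [hs]
    have h3 : ∀ v, p • t'' v = I v e := by
      intro v
      simp only [ht'']
      split_ifs
      · rw [smul_sub, hps, sub_zero, ht']
      · exact ht' v
    obtain ⟨x, hx, hxI⟩ := ES2 t'' h1 h2
    refine ⟨x, ?_⟩
    have h4 : p • x - e = 0 := by
      apply ES1 _ (IsPPrimary_sub (IsPPrimary_nsmul p hx) he)
      intro v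
      rw [map_sub, map_nsmul, hxI, h3, sub_self]
    exact sub_eq_zero.1 h4
  refine ⟨?_, ?_, ?_, ?_⟩
  · -- (K1)
    intro x
    have hj : j3 x = 0 := by
      apply ES4
      apply isPPrimary_of_smul_eq_zero
      rw [← map_nsmul, hpM3, map_zero]
    obtain ⟨e, rfl⟩ := hM3 x hj
    obtain ⟨n, hn, hne⟩ := htE2 e
    obtain ⟨k, m, hm, hnm⟩ := Nat.exists_eq_pow_mul_and_not_dvd hn.ne' p hp.ne_one
    have hme : IsPPrimary p (m • e) := ⟨k, by rw [← mul_smul, ← hnm, hne]⟩
    obtain ⟨x, hx⟩ := key _ hme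
    have h1 : m • δ2 e = 0 := by rw [← map_nsmul, ← hx, hE2']
    exact eq_zero_of_smul_of_smul hp hm h1 (hpM3 _)
  · -- (K2)
    intro x
    exact ES3 _
  · -- (K3)
    intro t ht hsum
    obtain ⟨e, he, heI⟩ := ES2 t (fun v => isPPrimary_of_smul_eq_zero p (ht v)) hsum
    have h0 : p • e = 0 := by
      apply ES1 _ (IsPPrimary_nsmul p he)
      intro v
      rw [map_nsmul, heI, ht]
    obtain ⟨x, hx⟩ := hE2 e h0
    exact ⟨x, fun v => by rw [hx, heI]⟩
  · -- (K4)
    intro x hx
    apply hM2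
    apply ES1 _ _ hx
    apply isPPrimary_of_smul_eq_zero
    rw [← map_nsmul, hpM2, map_zero]

end Fermat.Agent.S55.H74
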